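import Fermat.Agent.S17.BR.Defs
import Fermat.Agent.S17.Unr.Infty
import Fermat.Agent.GAL.Tors.Desc.IsFF
import Fermat.Agent.S17.GF.Reps

/-!
# S17 / BR: the concrete `Setup` for `F = modularFunctionFieldBar N`, `Γ = G_ℚ`, and the `RatField` of a
subfield `L` of `ℚ̄`.
-/

set_option autoImplicit false

noncomputable section

namespace Fermat.Agent.S17.BR

open AlgebraicCurve ModularCurve Fermat.Agent.S24

/-- the coefficient of `q^n`. -/
def coN (N : ℕ) (n : ℤ) : FN N →ₗ[Kbar] Kbar where
  toFun f := (f : LaurentSeries Kbar).coeff n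
  map_add' f g := rfl
  map_smul' c f := by
    show ((c • f : FN N) : LaurentSeries Kbar).coeff n = c * (f : LaurentSeries Kbar).coeff n
    rw [IntermediateField.coe_smul, Algebra.smul_def, algebraMap_laurentSeries_eq_single,
      HahnSeries.coeff_single_mul, sub_zero]

@[simp] theorem coN_apply (N : ℕ) (n : ℤ) (f : FN N) :
    coN N n f = (f : LaurentSeries Kbar).coeff n := rfl

/-- **The setup of level `N`.** -/
def setupN (N : ℕ) [NeZero N] : Setup Kbar (FN N) (Kbar ≃ₐ[ℚ] Kbar) where
  oo := Unr.oo N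
  co := coN N
  co_of_lt f n _ h := by
    rw [Unr.oo_ord] at h
    exact HahnSeries.coeff_eq_zero_of_lt_order h
  co_ord f hf := by
    rw [Unr.oo_ord, coN_apply]
    exact HahnSeries.coeff_order_eq_zero.not.mpr (fun h => hf (Subtype.ext h))
  co_one := by
    rw [coN_apply]
    show (1 : LaurentSeries Kbar).coeff 0 = 1
    simp
  ρ := arithmeticGalois (L := Kbar) (modularFunctionFieldFull N)
  ρ_oo := Unr.smul_oo N
  co_ρ _ _ _ := rfl

instance instIsFF_FN (N : ℕ) [NeZero N] : Lib.RR.IsFF Kbar (FN N) :=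
  Fermat.Agent.GAL.Desc.isFF_FF_Kbar N

/-- the rational structure attached to a subfield `L`. -/
def ratFieldN (N : ℕ) [NeZero N] (L : IntermediateField ℚ Kbar) : RatField (setupN N) where
  H := L.fixingSubgroup
  k0 := L.toSubfield
  mem_iff a := by
    constructor
    · intro ha σ hσ
      exact (IntermediateField.mem_fixingSubgroup_iff L σ).1 hσ a ha
    · intro h
      exact GF.mem_of_forall_fixingSubgroup L h

instance (N : ℕ) [NeZero N] (L : IntermediateField ℚ Kbar) : Infinite (ratFieldN N L).k0 :=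
  inferInstanceAs (Infinite L)

theorem setupN_smul_pic0 (N : ℕ) [NeZero N] (σ : Kbar ≃ₐ[ℚ] Kbar) (x : JZero N) :
    (setupN N).ρ σ • x = σ • x := rfl

end Fermat.Agent.S17.BR
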