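import Fermat.Agent.S17.BR.Main
import Fermat.Agent.S17.BR.Inst
import Fermat.Agent.S17.Unr.Stab
import Fermat.Agent.S17.Contracts

/-!
# S17 / BR: the contract `StmtBR N`.
-/

set_option autoImplicit false

noncomputable section

namespace Fermat.Agent.S17.BR

open AlgebraicCurve ModularCurve Fermat.Agent.S24

/-- **Block BR.** -/
theorem stmtBR (N : ℕ) [NeZero N] : StmtBR N := by
  intro L₀ hL₀
  obtain ⟨𝒯, h𝒯⟩ := exists_translateSet (K := Kbar) (F := FN N) (setupN N).oo
  obtain ⟨M, hM, hfix⟩ := Unr.OpenFix.finset 𝒯 (p := fun t σ => σ • t = t)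
    (fun t _ => Unr.stab N t)
  refine ⟨L₀ ⊔ M, IntermediateField.finiteDimensional_sup L₀ M, le_sup_left, RO (setupN N).oo,
    inferInstance, inferInstance, frame (setupN N), smooth (setupN N),
    frame_isRat (ratFieldN N (L₀ ⊔ M)), ?_⟩
  refine ⟨classData (setupN N) (ratFieldN N (L₀ ⊔ M)) 𝒯 ?_ h𝒯, ?_⟩
  · intro t ht σ hσ
    apply hfix σ _ t ht
    rw [IntermediateField.mem_fixingSubgroup_iff]
    intro x hx
    exact (IntermediateField.mem_fixingSubgroup_iff _ σ).1 hσ x ((le_sup_right : M ≤ L₀ ⊔ M) hx)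
  · ext x
    constructor
    · intro h σ
      exact h σ.1 σ.2
    · intro h σ hσ
      exact h ⟨σ, hσ⟩

end Fermat.Agent.S17.BR
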