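import Fermat.Agent.S17.Glob.Defs
import Fermat.Agent.DR.Abs.Nodal.Approx
import Fermat.Agent.DR.Abs.Nodal.Ideal
import Fermat.Prelude.Def_AlgebraicCurve_BaseChangeGalois

/-!
# S17 / BR (bridge): shared definitions

Abstract setting: `K` algebraically closed, `F / K` a function field (`Lib.RR.IsFF`), `oo` a place.

* `RO oo` : the `K`-algebra of functions regular outside `oo` (`= DR.Nodal.regOut {oo}`, so that
  `DR/Abs/Nodal/Approx.lean` (strong approximation, interpolation, uniformisers, bumps) and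
  `DR/Abs/Nodal/Ideal.lean` (`mem_ideal_of_local`) apply verbatim with `Z = {oo}`).
* `ptOf oo P hP : RO oo →ₐ[K] K` : evaluation at a place `P ≠ oo`.
* `Setup K F Γ` : `oo` + "coefficients of the expansion at `oo`" `co n : F →ₗ[K] K` + a semilinear action
  `ρ` of a group `Γ` fixing `oo` and compatible with `co`.
  (Instance: `F = modularFunctionFieldBar N`, `co n f =` coefficient of `q^n`, `Γ = G_ℚ`.)
* `RatField S` : a subgroup `H ≤ Γ` with its fixed field `k0 ⊆ K`.
-/

set_option autoImplicit false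

noncomputable section

namespace Fermat.Agent.S17.BR

open AlgebraicCurve Fermat.Agent.Lib.RR Fermat.Agent.Lib.PlaceEval Fermat.Agent.GAL.RED
  Fermat.Agent.DR.Nodal

variable {K F : Type} [Field K] [Field F] [Algebra K F]

/-- functions regular outside `oo`. -/
abbrev RO (oo : Place K F) : Subalgebra K F := regOut ({oo} : Set (Place K F))

section

variable [IsFF K F] [IsAlgClosed K] (oo : Place K F)

theorem mem_RO {f : F} : f ∈ RO oo ↔ ∀ P : Place K F, P ≠ oo → 0 ≤ P.ord f := by
  rw [mem_regOut]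
  exact forall_congr' fun P => by rw [Set.mem_singleton_iff, mem_iff]

/-- evaluation at a place `P ≠ oo`. -/
def ptOf (P : Place K F) (hP : P ≠ oo) : RO oo →ₐ[K] K where
  toFun f := ev P (f : F)
  map_one' := ev_one P
  map_mul' f g := ev_mul P ((mem_RO oo).1 f.2 P hP) ((mem_RO oo).1 g.2 P hP)
  map_zero' := ev_zero P
  map_add' f g := ev_add P ((mem_RO oo).1 f.2 P hP) ((mem_RO oo).1 g.2 P hP)
  commutes' a := ev_algebraMap P a

@[simp] theorem ptOf_apply (P : Place K F) (hP : P ≠ oo) (f : RO oo) :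
    ptOf oo P hP f = ev P (f : F) := rfl

end

/-- The data at infinity + the Galois action. -/
structure Setup (K F Γ : Type) [Field K] [Field F] [Algebra K F] [Group Γ] where
  /-- the point at infinity -/
  oo : Place K F
  /-- `co n f` = coefficient of `t^n` in the expansion of `f` at `oo` -/
  co : ℤ → F →ₗ[K] K
  co_of_lt : ∀ (f : F) (n : ℤ), f ≠ 0 → n < oo.ord f → co n f = 0
  co_ord : ∀ f : F, f ≠ 0 → co (oo.ord f) f ≠ 0
  co_one : co 0 1 = 1
  /-- the semilinear action -/
  ρ : Γ →* SemilinearAut K F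
  ρ_oo : ∀ γ, ρ γ • oo = oo
  co_ρ : ∀ (γ : Γ) (n : ℤ) (f : F), co n (ρ γ • f) = SemilinearAut.baseAut (ρ γ) (co n f)

variable {Γ : Type} [Group Γ]

/-- A subgroup together with its fixed field. -/
structure RatField (S : Setup K F Γ) where
  H : Subgroup Γ
  k0 : Subfield K
  mem_iff : ∀ a : K, a ∈ k0 ↔ ∀ γ ∈ H, SemilinearAut.baseAut (S.ρ γ) a = a

/-- `w` is the pole order at `oo` of an element of `V`. -/
def PoleOf (S : Setup K F Γ) (V : Submodule K F) (w : ℕ) : Prop :=
  ∃ f ∈ V, f ≠ 0 ∧ S.oo.ord f = -(w : ℤ)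

/-- `f` is THE reduced element of `V` of pole order `w`: leading coefficient `1`, and the coefficients at
the smaller pole orders of `V` vanish. -/
def IsRed (S : Setup K F Γ) (V : Submodule K F) (w : ℕ) (f : F) : Prop :=
  f ∈ V ∧ S.oo.ord f = -(w : ℤ) ∧ S.co (-(w : ℤ)) f = 1 ∧
    ∀ w' < w, PoleOf S V w' → S.co (-(w' : ℤ)) f = 0

/-- `RO oo` as a subspace of `F`. -/
abbrev ROm (S : Setup K F Γ) : Submodule K F := Subalgebra.toSubmodule (RO S.oo)

/-- the non-gaps at `oo`. -/
abbrev NonGap (S : Setup K F Γ) (w : ℕ) : Prop := PoleOf S (ROm S) w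

end Fermat.Agent.S17.BR
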