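import Fermat.Agent.S17.BR.Defs

/-!
# S17 / BR, leaf EC: reduced echelon elements of a subspace `V ⊆ RO oo` with respect to the expansion
at `oo`.  They are unique, hence fixed by every `γ` stabilising `V` ("Galois descent without descent").
Only the axioms of `Setup` and `RED.min_le_ord_add`, `RED.ord_add_eq_of_lt`, `Place.ord_mul`,
`RED.ord_algebraMap` are used.
-/

set_option autoImplicit false
set_option linter.unusedSectionVars false

noncomputable section

namespace Fermat.Agent.S17.BR

open AlgebraicCurve Fermat.Agent.GAL.RED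

variable {K F Γ : Type} [Field K] [Field F] [Algebra K F] [Group Γ]
  (S : Setup K F Γ) (V : Submodule K F)

/-- the elements of `V` have no zero at `oo`. -/
def PolesOnly : Prop := ∀ f ∈ V, f ≠ 0 → S.oo.ord f ≤ 0

variable {S V}

/-- (EC1) if `f ∈ V`, `-(n:ℤ) ≤ ord f` and all `co (-w) f = 0` for `w ≤ n`, `PoleOf S V w`, then `f = 0`
(otherwise `ord f = -w`, `0 ≤ w ≤ n`, `PoleOf S V w`, `co_ord`). -/
theorem eq_zero_of_co (hV : PolesOnly S V) {f : F} (hf : f ∈ V) (n : ℕ)
    (hn : f = 0 ∨ -(n : ℤ) ≤ S.oo.ord f)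
    (h : ∀ w ≤ n, PoleOf S V w → S.co (-(w : ℤ)) f = 0) : f = 0 := by
  by_contra hne
  have h0 : S.oo.ord f ≤ 0 := hV f hf hne
  have h1 : -(n : ℤ) ≤ S.oo.ord f := hn.resolve_left hne
  obtain ⟨w, hw⟩ : ∃ w : ℕ, S.oo.ord f = -(w : ℤ) :=
    ⟨(-S.oo.ord f).toNat, by rw [Int.toNat_of_nonneg (by omega)]; ring⟩
  have h2 := h w (by omega) ⟨f, hf, hne, hw⟩
  rw [← hw] at h2
  exact S.co_ord f hne h2

/-- the order at `oo` of a nonzero scalar multiple. -/
theorem Echelon_ord_smul (S : Setup K F Γ) {a : K} (ha : a ≠ 0) (f : F) :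
    S.oo.ord (a • f) = S.oo.ord f := by
  rcases eq_or_ne f 0 with rfl | hf
  · rw [smul_zero]
  · rw [Algebra.smul_def, S.oo.ord_mul ((map_ne_zero _).2 ha) hf, ord_algebraMap, zero_add]

/-- the functions with a pole of order at most `n` at `oo`. -/
def Echelon_geSub (S : Setup K F Γ) (n : ℕ) : Submodule K F where
  carrier := {f | f = 0 ∨ -(n : ℤ) ≤ S.oo.ord f}
  zero_mem' := Or.inl rfl
  add_mem' := by
    intro f g hf hg
    by_cases h : f + g = 0
    · exact Or.inl h
    · refine Or.inr (le_trans (le_min ?_ ?_) (min_le_ord_add S.oo h))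
      · rcases hf with rfl | hf
        · rw [Place.ord_zero]; omega
        · exact hf
      · rcases hg with rfl | hg
        · rw [Place.ord_zero]; omega
        · exact hg
  smul_mem' := by
    intro a f hf
    rcases eq_or_ne a 0 with rfl | ha
    · exact Or.inl (zero_smul _ _)
    · rcases hf with rfl | hf
      · exact Or.inl (smul_zero _)
      · exact Or.inr (by rw [Echelon_ord_smul S ha]; exact hf)

theorem Echelon_mem_geSub {S : Setup K F Γ} {n : ℕ} {f : F} :
    f ∈ Echelon_geSub S n ↔ (f = 0 ∨ -(n : ℤ) ≤ S.oo.ord f) := Iff.rfl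

theorem IsRed.ne_zero {w : ℕ} {f : F} (h : IsRed S V w f) : f ≠ 0 := by
  rintro rfl
  have := h.2.2.1
  rw [map_zero] at this
  exact zero_ne_one this

theorem IsRed.poleOf {w : ℕ} {f : F} (h : IsRed S V w f) : PoleOf S V w :=
  ⟨f, h.1, h.ne_zero, h.2.1⟩

/-- (EC2) uniqueness (apply (EC1) to `f - f'`, `n = w`; `ord (f - f') ≥ -w` by `min_le_ord_add`). -/
theorem IsRed.unique (hV : PolesOnly S V) {w : ℕ} {f f' : F} (h : IsRed S V w f)
    (h' : IsRed S V w f') : f = f' := by
  have hmem : f - f' ∈ Echelon_geSub S w :=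
    sub_mem (Or.inr h.2.1.ge) (Or.inr h'.2.1.ge)
  refine sub_eq_zero.1 (eq_zero_of_co hV (V.sub_mem h.1 h'.1) w hmem ?_)
  intro w' hw' hp
  rw [map_sub]
  rcases hw'.lt_or_eq with hlt | rfl
  · rw [h.2.2.2 w' hlt hp, h'.2.2.2 w' hlt hp, sub_zero]
  · rw [h.2.2.1, h'.2.2.1, sub_self]

/-- (EC3) existence.  Start with `f₀ ∈ V` of order `-w`, scaled so that `co (-w) f₀ = 1`.  Show by
induction on `n ≤ w` : there is `f ∈ V` with `ord f = -w`, `co (-w) f = 1` and `co (-w') f = 0` for all
`w'` with `w - n ≤ w' < w`, `PoleOf S V w'` (step: subtract `co (-w') f / co (-w') g • g`, `g ∈ V` of order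
`-w'`, `w' = w - n - 1`; this does not change the coefficients `co (-w'')`, `w'' > w'` by `co_of_lt`, nor the
order by `ord_add_eq_of_lt`). -/
theorem exists_isRed (hV : PolesOnly S V) {w : ℕ} (hw : PoleOf S V w) : ∃ f, IsRed S V w f := by
  have key : ∀ n : ℕ, ∃ f ∈ V, S.oo.ord f = -(w : ℤ) ∧ S.co (-(w : ℤ)) f = 1 ∧
      ∀ w' < w, w ≤ w' + n → PoleOf S V w' → S.co (-(w' : ℤ)) f = 0 := by
    intro n
    induction n with
    | zero =>
      obtain ⟨f₀, hf₀, hne, hord⟩ := hw
      have hc : S.co (-(w : ℤ)) f₀ ≠ 0 := by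
        rw [← hord]
        exact S.co_ord f₀ hne
      refine ⟨(S.co (-(w : ℤ)) f₀)⁻¹ • f₀, V.smul_mem _ hf₀, ?_, ?_, ?_⟩
      · rw [Echelon_ord_smul S (inv_ne_zero hc), hord]
      · rw [map_smul, smul_eq_mul, inv_mul_cancel₀ hc]
      · intro w' h1 h2
        omega
    | succ n ih =>
      obtain ⟨f, hf, hord, hco, hred⟩ := ih
      have hfne : f ≠ 0 := by
        rintro rfl
        rw [map_zero] at hco
        exact zero_ne_one hco
      by_cases hn : n + 1 ≤ w
      · obtain ⟨w0, hw0⟩ : ∃ w0, w = w0 + (n + 1) := ⟨w - (n + 1), by omega⟩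
        by_cases hp : PoleOf S V w0
        · by_cases hco0 : S.co (-(w0 : ℤ)) f = 0
          · refine ⟨f, hf, hord, hco, fun w' h1 h2 h3 => ?_⟩
            by_cases h4 : w' = w0
            · rw [h4]; exact hco0
            · exact hred w' h1 (by omega) h3
          · obtain ⟨g, hg, hgne, hgord⟩ := hp
            have hgc : S.co (-(w0 : ℤ)) g ≠ 0 := by
              rw [← hgord]
              exact S.co_ord g hgne
            set a : K := S.co (-(w0 : ℤ)) f / S.co (-(w0 : ℤ)) g with ha
            have ha0 : a ≠ 0 := div_ne_zero hco0 hgc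
            refine ⟨f + (-a) • g, V.add_mem hf (V.smul_mem _ hg), ?_, ?_, ?_⟩
            · rw [ord_add_eq_of_lt S.oo hfne (smul_ne_zero (neg_ne_zero.2 ha0) hgne), hord]
              rw [Echelon_ord_smul S (neg_ne_zero.2 ha0), hord, hgord]
              omega
            · rw [map_add, map_smul, hco, S.co_of_lt g _ hgne (by rw [hgord]; omega), smul_zero,
                add_zero]
            · intro w' h1 h2 h3
              rw [map_add, map_smul]
              by_cases h4 : w' = w0
              · rw [h4, smul_eq_mul, ha]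
                field_simp
                ring
              · rw [hred w' h1 (by omega) h3, S.co_of_lt g _ hgne (by rw [hgord]; omega),
                  smul_zero, add_zero]
        · refine ⟨f, hf, hord, hco, fun w' h1 h2 h3 => ?_⟩
          by_cases h4 : w' = w0
          · exact absurd (h4 ▸ h3) hp
          · exact hred w' h1 (by omega) h3
      · exact ⟨f, hf, hord, hco, fun w' h1 h2 h3 => hred w' h1 (by omega) h3⟩
  obtain ⟨f, hf, hord, hco, hred⟩ := key w
  exact ⟨f, hf, hord, hco, fun w' h1 h3 => hred w' h1 (by omega) h3⟩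

variable (S V)

open Classical in
/-- the reduced element of pole order `w` (`0` if `w` is not a pole order of `V`). -/
def red (w : ℕ) : F := if h : ∃ f, IsRed S V w f then h.choose else 0

variable {S V}

theorem isRed_red (hV : PolesOnly S V) {w : ℕ} (hw : PoleOf S V w) : IsRed S V w (red S V w) := by
  have h := exists_isRed hV hw
  rw [red, dif_pos h]
  exact h.choose_spec

theorem red_mem (w : ℕ) : red S V w ∈ V := by
  by_cases h : ∃ f, IsRed S V w f
  · rw [red, dif_pos h]
    exact h.choose_spec.1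
  · rw [red, dif_neg h]
    exact V.zero_mem

/-- (EC4) `co (-w') (red w) = δ_{w w'}` for pole orders `w, w'` of `V`
(`w' < w`: reducedness; `w' = w`: normalisation; `w' > w`: `co_of_lt`). -/
theorem co_red (hV : PolesOnly S V) {w w' : ℕ} (hw : PoleOf S V w) (hw' : PoleOf S V w') :
    S.co (-(w' : ℤ)) (red S V w) = if w' = w then 1 else 0 := by
  have h := isRed_red hV hw
  rcases lt_trichotomy w' w with hlt | rfl | hgt
  · rw [if_neg hlt.ne, h.2.2.2 w' hlt hw']
  · rw [if_pos rfl, h.2.2.1]
  · rw [if_neg hgt.ne', S.co_of_lt _ _ h.ne_zero (by rw [h.2.1]; omega)]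

open Classical in
/-- (EC5) expansion: apply (EC1) to the difference, using (EC4). -/
theorem eq_sum_red (hV : PolesOnly S V) {f : F} (hf : f ∈ V) (n : ℕ)
    (hn : f = 0 ∨ -(n : ℤ) ≤ S.oo.ord f) :
    f = ∑ w ∈ (Finset.range (n + 1)).filter (PoleOf S V), S.co (-(w : ℤ)) f • red S V w := by
  refine sub_eq_zero.1 (eq_zero_of_co hV (V.sub_mem hf (V.sum_mem fun w _ =>
    V.smul_mem _ (red_mem w))) n ?_ ?_)
  · refine Echelon_mem_geSub.1 (sub_mem hn (Submodule.sum_mem _ fun w hw =>
      Submodule.smul_mem _ _ (Or.inr ?_)))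
    rw [Finset.mem_filter, Finset.mem_range] at hw
    rw [(isRed_red hV hw.2).2.1]
    omega
  · intro w' hw' hp
    rw [map_sub, map_sum, sub_eq_zero]
    rw [Finset.sum_congr rfl (g := fun w => if w' = w then S.co (-(w : ℤ)) f else 0)]
    · rw [Finset.sum_ite_eq, if_pos]
      rw [Finset.mem_filter, Finset.mem_range]
      exact ⟨by omega, hp⟩
    · intro w hw
      rw [Finset.mem_filter] at hw
      rw [map_smul, co_red hV hw.2 hp, smul_eq_mul, mul_ite, mul_one, mul_zero]

/-- (EC6) Galois invariance: if `γ` maps `V` into `V` then `γ • red w` is reduced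
(`SemilinearAut.ord_smul` + `S.ρ_oo`: `ord_oo (γ f) = ord_oo f`; `S.co_ρ`; `map_one`, `map_zero`), so it
equals `red w` by (EC2).  (If `w` is not a pole order both sides are `0`.) -/
theorem smul_red (hV : PolesOnly S V) (γ : Γ) (hγ : ∀ f ∈ V, S.ρ γ • f ∈ V) (w : ℕ) :
    S.ρ γ • red S V w = red S V w := by
  by_cases hw : PoleOf S V w
  · have h := isRed_red hV hw
    refine IsRed.unique hV ⟨hγ _ h.1, ?_, ?_, ?_⟩ h
    · have h1 := SemilinearAut.ord_smul (S.ρ γ) S.oo (red S V w)
      rw [S.ρ_oo] at h1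
      rw [h1, h.2.1]
    · rw [S.co_ρ, h.2.2.1, map_one]
    · intro w' h1 h2
      rw [S.co_ρ, h.2.2.2 w' h1 h2, map_zero]
  · have h0 : red S V w = 0 := by
      rw [red, dif_neg]
      rintro ⟨f, hf⟩
      exact hw hf.poleOf
    rw [h0, smul_zero]

end Fermat.Agent.S17.BR
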