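import Fermat.Agent.S17.BR.GenPt
import Fermat.Agent.S19.Weil.PairAux

/-!
# S17 / BR, leaf G2: the classes `y` with `ℓ(y + g∞) = 1 = ℓ(-y + g∞)`, and translation into them.
-/

set_option autoImplicit false
set_option linter.unusedSectionVars false

namespace Fermat.Agent.S17.BR

open AlgebraicCurve Fermat.Agent.Lib.RR Fermat.Agent.GAL.FF Fermat.Agent.GAL.FF.General

variable {K F : Type*} [Field K] [IsAlgClosed K] [Field F] [Algebra K F] [IsFF K F]

/-- a representative of a class. -/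
noncomputable def rep (y : Pic0 K F) : Divisor K F := ((Pic0.mk_surjective y).choose : Divisor K F)

theorem degree_rep (y : Pic0 K F) : Divisor.degree (rep y) = 0 := (Pic0.mk_surjective y).choose.2

theorem mk_rep (y : Pic0 K F) : Pic0.mk ⟨rep y, degree_rep y⟩ = y := (Pic0.mk_surjective y).choose_spec

/-- `ℓ(y + B)` for a class `y` and a divisor `B`. -/
noncomputable def lcl (y : Pic0 K F) (B : Divisor K F) : ℕ := ell (rep y + B)

/-- `S19.Weil.PairAux_mk_eq_mk_iff` + `ell_add_divOf`. -/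
theorem lcl_eq {y : Pic0 K F} {D : Divisor K F} (hD : D ∈ Divisor.degZero (K := K) (F := F))
    (h : Pic0.mk ⟨D, hD⟩ = y) (B : Divisor K F) : lcl y B = ell (D + B) := by
  have h1 : Pic0.mk ⟨D, hD⟩ = Pic0.mk ⟨rep y, degree_rep y⟩ := by rw [h, mk_rep]
  obtain ⟨u, hu, hu'⟩ := (S19.Weil.PairAux_mk_eq_mk_iff hD (degree_rep y)).1 h1
  unfold lcl
  rw [hu', show D + divOf (K := K) u + B = (D + B) + divOf u by abel, ell_add_divOf _ hu]

/-- the class of a divisor of degree `n` minus `n ∞`. -/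
noncomputable def clsOf (oo : Place K F) (E : Divisor K F) : Pic0 K F :=
  Pic0.mk ⟨E - Divisor.degree E • pt oo, by
    rw [Divisor.mem_degZero, map_sub, map_zsmul, General_degree_pt]; simp⟩

/-- `Good y ↔ ℓ(y + g∞) = 1 = ℓ(-y + g∞)`. -/
def Good (oo : Place K F) (y : Pic0 K F) : Prop :=
  lcl y (genusFF K F • pt oo) = 1 ∧ lcl (-y) (genusFF K F • pt oo) = 1

theorem Good.neg {oo : Place K F} {y : Pic0 K F} (h : Good oo y) : Good oo (-y) :=
  ⟨h.2, by rw [neg_neg]; exact h.1⟩

/-- PROOF. `g := genusFF K F`, `D := rep y`, `W` canonical (`riemann_roch`).  Apply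
`exists_general_points 𝒮 (2 g) ![W - D, -D + 2g∞, D + 2g∞, W + D] _ _ g` (degrees `2g-2, 2g, 2g, 2g-2`).
`ℓ(W ∓ D) = g - 1 + ℓ(± D) ≤ g` (`ell_le_degree_add`, `ell_zero`), `ℓ(± D + 2g∞) = g + 1`
(`ell_eq_of_lt_degree'`).  So `ℓ(W - D - E) = 0 = ℓ(W + D - E)` and `ℓ(± D + 2g∞ - E) = 1`.  With
`t = clsOf oo E = [E - g∞]`:
`(y + t) + g∞ ∼ D + E`, `ℓ(D + E) = g + 1 - g + ℓ(W - D - E) = 1`;
`-(y + t) + g∞ ∼ -D - E + 2g∞`; `(y - t) + g∞ ∼ D - E + 2g∞`; `-(y - t) + g∞ ∼ -D + E`
(`lcl_eq` with these representatives). -/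
theorem exists_translate (oo : Place K F) (𝒮 : Finset (Place K F))
    (h𝒮 : 8 * genusFF K F < 𝒮.card) (y : Pic0 K F) :
    ∃ E : Divisor K F, 0 ≤ E ∧ Divisor.degree E = genusFF K F ∧ E.support ⊆ 𝒮 ∧
      Good oo (y + clsOf oo E) ∧ Good oo (y - clsOf oo E) := by
  set g := genusFF K F with hg
  set D := rep y with hDdef
  have hD0 : Divisor.degree D = 0 := degree_rep y
  obtain ⟨W, hWdeg, -, hRR⟩ := riemann_roch (K := K) (F := F)
  have hoo : Divisor.degree (pt oo) = 1 := General_degree_pt oo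
  have hdeg : ∀ i, Divisor.degree
      ((![W - D, -D + (2 * g) • pt oo, D + (2 * g) • pt oo, W + D] : Fin 4 → Divisor K F) i)
        ≤ ((2 * g : ℕ) : ℤ) := by
    intro i
    fin_cases i
    · simp only [Fin.zero_eta, Matrix.cons_val_zero, map_sub, hWdeg, hD0]
      push_cast; omega
    · simp only [Fin.mk_one, Matrix.cons_val_one, Matrix.cons_val_zero, map_add, map_neg,
        map_nsmul, hoo, hD0]
      simp
    · simp only [Fin.reduceFinMk, Matrix.cons_val, map_add, map_nsmul, hoo, hD0]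
      simp
    · simp only [Fin.reduceFinMk, Matrix.cons_val, map_add, hWdeg, hD0]
      push_cast; omega
  obtain ⟨E, hE0, hEdeg, hEsupp, hE⟩ := exists_general_points 𝒮 (2 * g)
    (![W - D, -D + (2 * g) • pt oo, D + (2 * g) • pt oo, W + D] : Fin 4 → Divisor K F) hdeg
    (by rw [Fintype.card_fin]; omega) g
  have e0 : ell (W - D - E) = ell (W - D) - g := hE 0
  have e1 : ell (-D + (2 * g) • pt oo - E) = ell (-D + (2 * g) • pt oo) - g := hE 1
  have e2 : ell (D + (2 * g) • pt oo - E) = ell (D + (2 * g) • pt oo) - g := hE 2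
  have e3 : ell (W + D - E) = ell (W + D) - g := hE 3
  have hz : ell (0 : Divisor K F) = 1 := ell_zero
  -- the four values
  have a0 : ell (W - D - E) = 0 := by
    have h1 := hRR D
    have h2 := ell_le_degree_add (D := D) (by rw [hD0])
    rw [hD0, hz] at h2
    rw [hD0] at h1
    omega
  have a3 : ell (W + D - E) = 0 := by
    have h1 := hRR (-D)
    have h2 := ell_le_degree_add (D := -D) (by rw [map_neg, hD0]; simp)
    rw [map_neg, hD0, hz] at h2
    rw [map_neg, hD0, sub_neg_eq_add] at h1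
    omega
  have a1 : ell (-D + (2 * g) • pt oo - E) = 1 := by
    have h1 := ell_eq_of_lt_degree' (D := -D + (2 * g) • pt oo)
      (by rw [map_add, map_neg, map_nsmul, hoo, hD0]; simp; omega)
    rw [map_add, map_neg, map_nsmul, hoo, hD0] at h1
    simp only [neg_zero, smul_eq_mul, mul_one, zero_add, nsmul_eq_mul] at h1
    push_cast at h1
    omega
  have a2 : ell (D + (2 * g) • pt oo - E) = 1 := by
    have h1 := ell_eq_of_lt_degree' (D := D + (2 * g) • pt oo)
      (by rw [map_add, map_nsmul, hoo, hD0]; simp; omega)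
    rw [map_add, map_nsmul, hoo, hD0] at h1
    simp only [smul_eq_mul, mul_one, zero_add, nsmul_eq_mul] at h1
    push_cast at h1
    omega
  have b0 : ell (D + E) = 1 := by
    have h1 := hRR (D + E)
    rw [map_add, hD0, hEdeg, show W - (D + E) = W - D - E by abel, a0] at h1
    push_cast at h1
    omega
  have b3 : ell (-D + E) = 1 := by
    have h1 := hRR (-D + E)
    rw [map_add, map_neg, hD0, hEdeg, show W - (-D + E) = W + D - E by abel, a3] at h1
    push_cast at h1
    omega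
  -- the class `t`
  set T : Divisor K F := E - g • pt oo with hT
  have hT0 : T ∈ Divisor.degZero (K := K) (F := F) := by
    rw [Divisor.mem_degZero, hT, map_sub, map_nsmul, hoo, hEdeg]; simp
  have ht : clsOf oo E = Pic0.mk ⟨T, hT0⟩ := by
    unfold clsOf
    congr 1
    apply Subtype.ext
    show E - Divisor.degree E • pt oo = E - g • pt oo
    rw [hEdeg, natCast_zsmul]
  have hDm : D ∈ Divisor.degZero (K := K) (F := F) := degree_rep y
  have hy : Pic0.mk ⟨D, hDm⟩ = y := mk_rep y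
  have c1 : Pic0.mk ⟨D + T, add_mem hDm hT0⟩ = y + clsOf oo E := by
    rw [ht, ← hy]; rfl
  have c2 : Pic0.mk ⟨-(D + T), neg_mem (add_mem hDm hT0)⟩ = -(y + clsOf oo E) := by
    rw [ht, ← hy]; rfl
  have c3 : Pic0.mk ⟨D - T, sub_mem hDm hT0⟩ = y - clsOf oo E := by
    rw [ht, ← hy]; rfl
  have c4 : Pic0.mk ⟨-(D - T), neg_mem (sub_mem hDm hT0)⟩ = -(y - clsOf oo E) := by
    rw [ht, ← hy]; rfl
  refine ⟨E, hE0, hEdeg, hEsupp, ⟨?_, ?_⟩, ⟨?_, ?_⟩⟩
  · rw [lcl_eq _ c1, hT, show D + (E - g • pt oo) + g • pt oo = D + E by abel, b0]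
  · rw [lcl_eq _ c2, hT, show -(D + (E - g • pt oo)) + g • pt oo
      = -D + (2 * g) • pt oo - E by rw [two_mul, add_nsmul]; abel, a1]
  · rw [lcl_eq _ c3, hT, show D - (E - g • pt oo) + g • pt oo
      = D + (2 * g) • pt oo - E by rw [two_mul, add_nsmul]; abel, a2]
  · rw [lcl_eq _ c4, hT, show -(D - (E - g • pt oo)) + g • pt oo = -D + E by abel, b3]

/-- **A finite set of translations.**  Take `𝒮` with `8 g + 1` places (`infinite_place`,
`Infinite.exists_subset_card_eq`/`Finset.exists_card_eq`), `𝒯 :=` image under `clsOf oo` of the finite set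
`finite_effective_supported 𝒮 g` (`Set.Finite.toFinset`, `Finset.image`), and `exists_translate`. -/
theorem exists_translateSet (oo : Place K F) :
    ∃ 𝒯 : Finset (Pic0 K F), ∀ y : Pic0 K F, ∃ t ∈ 𝒯, Good oo (y + t) ∧ Good oo (y - t) := by
  classical
  haveI : Infinite (Place K F) := infinite_place
  obtain ⟨𝒮, h𝒮⟩ := Infinite.exists_subset_card_eq (Place K F) (8 * genusFF K F + 1)
  refine ⟨(finite_effective_supported 𝒮 (genusFF K F)).toFinset.image (clsOf oo), fun y => ?_⟩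
  obtain ⟨E, h0, h1, h2, h3, h4⟩ := exists_translate oo 𝒮 (by omega) y
  refine ⟨clsOf oo E, Finset.mem_image.2 ⟨E, ?_, rfl⟩, h3, h4⟩
  rw [Set.Finite.mem_toFinset]
  exact ⟨h0, h1, h2⟩

end Fermat.Agent.S17.BR
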