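import Fermat.Agent.S17.BR.Zeros
import Fermat.Agent.S17.BR.Good

/-!
# S17 / BR, leaf FB: `ClassData.fiber_finite`.

`aff oo f` = the part of `divOf f` outside `oo`.  If `φ ψ = f Fy`, `div₀ f = D + E` (simple zeros), `φ` vanishes
on `D`, `ψ` on `E`, then `D' := aff φ - D` satisfies `0 ≤ D' ≤ aff Fy` and `cl D = - clsOf D'`.
-/

set_option autoImplicit false
set_option linter.unusedSectionVars false

noncomputable section

namespace Fermat.Agent.S17.BR

open AlgebraicCurve Fermat.Agent.Lib.RR Fermat.Agent.Lib.PlaceEval Fermat.Agent.GAL.RED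
  Fermat.Agent.DR.Nodal

open scoped Classical

variable {K F Γ : Type} [Field K] [Field F] [Algebra K F] [Group Γ] [IsFF K F] [IsAlgClosed K]

section

variable (oo : Place K F)

/-- (FB1) `clsOf` is additive. -/
theorem clsOf_add (A B : Divisor K F) : clsOf oo (A + B) = clsOf oo A + clsOf oo B := by
  unfold clsOf
  rw [← Pic0.mk_add]
  congr 1
  apply Subtype.ext
  show A + B - Divisor.degree (A + B) • pt oo
    = (A - Divisor.degree A • pt oo) + (B - Divisor.degree B • pt oo)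
  rw [map_add, add_smul]
  abel

/-- (FB2) -/
theorem cl_eq_clsOf (D : Finset (RO oo →ₐ[K] K)) : cl oo D = clsOf oo (divSet oo D) := by
  unfold cl clsOf
  congr 1
  apply Subtype.ext
  show divSet oo D - D.card • pt oo = divSet oo D - Divisor.degree (divSet oo D) • pt oo
  rw [degree_divSet, natCast_zsmul]

/-- the part of `divOf f` outside `oo`. -/
def aff (f : F) : Divisor K F := divOf f - oo.ord f • pt oo

theorem aff_apply_oo (f : F) : aff oo f oo = 0 := by
  unfold aff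
  rw [Finsupp.sub_apply, divOf_apply, Finsupp.smul_apply, Finsupp.single_apply, if_pos rfl]
  simp

theorem aff_apply_of_ne (f : F) {P : Place K F} (hP : P ≠ oo) : aff oo f P = P.ord f := by
  unfold aff
  rw [Finsupp.sub_apply, divOf_apply, Finsupp.smul_apply, Finsupp.single_apply, if_neg hP.symm]
  simp

theorem aff_mul {f g : F} (hf : f ≠ 0) (hg : g ≠ 0) : aff oo (f * g) = aff oo f + aff oo g := by
  unfold aff
  rw [divOf_mul hf hg, oo.ord_mul hf hg, add_smul]
  abel

/-- (FB3) `aff f - deg (aff f) oo = divOf f` is principal. -/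
theorem clsOf_aff {f : F} (hf : f ≠ 0) : clsOf oo (aff oo f) = 0 := by
  unfold clsOf Pic0.mk
  rw [QuotientAddGroup.eq_zero_iff, AddSubgroup.mem_addSubgroupOf, Divisor.mem_principal]
  refine ⟨f, hf, fun v => ?_⟩
  show (aff oo f - Divisor.degree (aff oo f) • pt oo) v = v.ord f
  have hdeg : Divisor.degree (aff oo f) = - oo.ord f := by
    unfold aff
    rw [map_sub, degree_divOf, map_zsmul, degree_pt, deg_eq_one]
    simp
  rw [hdeg]
  unfold aff
  rw [neg_smul, sub_neg_eq_add, sub_add_cancel, divOf_apply]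

/-- (FB4) if `φ ≠ 0` vanishes on `D` then `divSet D ≤ aff φ`. -/
theorem divSet_le_aff (D : Finset (RO oo →ₐ[K] K)) {φ : RO oo} (hφ : φ ≠ 0)
    (h : ∀ P ∈ D, P φ = 0) : divSet oo D ≤ aff oo (φ : F) := by
  intro P
  by_cases hP : P = oo
  · subst hP
    rw [divSet_apply_oo, aff_apply_oo]
  · rw [aff_apply_of_ne oo _ hP]
    obtain ⟨χ, rfl⟩ : ∃ χ, placeOf oo χ = P := ⟨ptOf oo P hP, placeOf_ptOf _ _ _⟩
    rw [divSet_apply]
    have h0 : 0 ≤ (placeOf oo χ).ord (φ : F) := (mem_RO oo).1 φ.2 _ hP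
    split_ifs with hχ
    · rcases (apply_eq_zero_iff oo χ φ).1 (h χ hχ) with h2 | h2
      · exact absurd h2 hφ
      · omega
    · exact h0

theorem divSet_union (D E : Finset (RO oo →ₐ[K] K)) (h : Disjoint D E) :
    divSet oo (D ∪ E) = divSet oo D + divSet oo E := by
  unfold divSet
  exact Finset.sum_union h

end

variable (S : Setup K F Γ)

/-- (FB5) -/
theorem IsZeros.aff_eq {f : RO S.oo} {D : Finset (RO S.oo →ₐ[K] K)} (h : IsZeros (frame S) f D) :
    aff S.oo (f : F) = divSet S.oo D := by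
  have h1 := IsZeros.divOf_eq S h
  have h2 := DFunLike.congr_fun h1 S.oo
  rw [divOf_apply, divSet_sub_apply_oo] at h2
  unfold aff
  rw [h1, h2, neg_smul, natCast_zsmul]
  abel

/-- (FB6) -/
theorem fiber_finite (Fy : RO S.oo) (hFy : Fy ≠ 0) :
    {y : Pic0 K F | ∃ (D E : Finset (RO S.oo →ₐ[K] K)) (f φ ψ : RO S.oo),
      cl S.oo D = y ∧ Disjoint D E ∧ IsZeros (frame S) f (D ∪ E) ∧ φ ≠ 0 ∧ ψ ≠ 0 ∧
        (∀ P ∈ D, P φ = 0) ∧ (∀ P ∈ E, P ψ = 0) ∧ φ * ψ = f * Fy}.Finite := by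
  refine ((Set.finite_Icc (0 : Divisor K F) (aff S.oo (Fy : F))).image
    (fun D' => - clsOf S.oo D')).subset ?_
  rintro y ⟨D, E, f, φ, ψ, rfl, hdis, hz, hφ, hψ, hD, hE, hmul⟩
  have hf := IsZeros.ne_zero S hz
  have c0 : ∀ {u : RO S.oo}, u ≠ 0 → (u : F) ≠ 0 := fun h h0 => h (Subtype.ext h0)
  have h1 : aff S.oo (φ : F) + aff S.oo (ψ : F) = divSet S.oo D + divSet S.oo E + aff S.oo (Fy : F) := by
    rw [← aff_mul S.oo (c0 hφ) (c0 hψ), ← divSet_union S.oo D E hdis, ← IsZeros.aff_eq S hz,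
      ← aff_mul S.oo (c0 hf) (c0 hFy)]
    exact congrArg (aff S.oo) (congrArg Subtype.val hmul)
  have h2 := divSet_le_aff S.oo D hφ hD
  have h3 := divSet_le_aff S.oo E hψ hE
  refine ⟨aff S.oo (φ : F) - divSet S.oo D, ⟨sub_nonneg.2 h2, ?_⟩, ?_⟩
  · have : aff S.oo (φ : F) - divSet S.oo D = aff S.oo (Fy : F) - (aff S.oo (ψ : F) - divSet S.oo E) := by
      rw [sub_eq_sub_iff_add_eq_add]
      have := h1
      calc aff S.oo (φ : F) + (aff S.oo (ψ : F) - divSet S.oo E)
          = (aff S.oo (φ : F) + aff S.oo (ψ : F)) - divSet S.oo E := by abel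
        _ = aff S.oo (Fy : F) + divSet S.oo D := by rw [h1]; abel
    rw [this]
    exact sub_le_self _ (sub_nonneg.2 h3)
  · show - clsOf S.oo (aff S.oo (φ : F) - divSet S.oo D) = cl S.oo D
    have h4 : clsOf S.oo (aff S.oo (φ : F) - divSet S.oo D) + clsOf S.oo (divSet S.oo D) = 0 := by
      rw [← clsOf_add, sub_add_cancel, clsOf_aff S.oo (c0 hφ)]
    rw [cl_eq_clsOf]
    exact neg_eq_of_add_eq_zero_right h4

end Fermat.Agent.S17.BR
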