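import Fermat.Agent.S17.BR.Gaps

/-!
# S17 / BR, leaf FR: the frame of `RO oo`: reduced echelon basis `e i` of pole order `wt i`.
KEY FORMULA `repr_eq_co`: the `l`-th coordinate of `f` is the coefficient `co (-wt l) f`.
-/

set_option autoImplicit false
set_option linter.unusedSectionVars false

noncomputable section

namespace Fermat.Agent.S17.BR

open AlgebraicCurve Fermat.Agent.Lib.RR Fermat.Agent.GAL.RED Fermat.Agent.DR.Nodal

open scoped Classical

variable {K F Γ : Type} [Field K] [Field F] [Algebra K F] [Group Γ] [IsFF K F] [IsAlgClosed K]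
  (S : Setup K F Γ)

/-- the reduced element of pole order `wt i`. -/
def eF (i : ℕ) : RO S.oo :=
  ⟨red S (ROm S) (wt S i), (Subalgebra.mem_toSubmodule _).1 (red_mem (S := S) (V := ROm S) (wt S i))⟩

theorem isRed_eF (i : ℕ) : IsRed S (ROm S) (wt S i) (eF S i : F) :=
  isRed_red (polesOnly_ROm S) (nonGap_wt S i)

/-- (FR1) `co_red` + injectivity of `wt`. -/
theorem co_eF (i l : ℕ) : S.co (-(wt S l : ℤ)) (eF S i : F) = if l = i then 1 else 0 := by
  have h := co_red (polesOnly_ROm S) (nonGap_wt S i) (nonGap_wt S l)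
  show S.co (-(wt S l : ℤ)) (red S (ROm S) (wt S i)) = _
  rw [h]
  by_cases hli : l = i
  · rw [if_pos hli, if_pos (by rw [hli])]
  · rw [if_neg hli, if_neg (fun h => hli ((wt_strictMono S).injective h))]

/-- the coefficient functional on `RO oo`. -/
def Frame_coL (l : ℕ) : RO S.oo →ₗ[K] K :=
  (S.co (-(wt S l : ℤ))) ∘ₗ (RO S.oo).val.toLinearMap

theorem Frame_coL_apply (l : ℕ) (f : RO S.oo) :
    Frame_coL S l f = S.co (-(wt S l : ℤ)) (f : F) := rfl

theorem Frame_eF_ne_zero (i : ℕ) : (eF S i : F) ≠ 0 := by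
  intro h
  have h1 := co_eF S i i
  rw [h, map_zero, if_pos rfl] at h1
  exact zero_ne_one h1

theorem Frame_ord_eF (i : ℕ) : S.oo.ord (eF S i : F) = -(wt S i : ℤ) := (isRed_eF S i).2.1

theorem Frame_ord_le (f : RO S.oo) (hf : f ≠ 0) : S.oo.ord (f : F) ≤ 0 :=
  polesOnly_ROm S (f : F) f.2 (fun h => hf (Subtype.ext h))

/-- (FR2) apply `co (-wt l)` to a vanishing linear combination (`linearIndependent_iff'`, `co_eF`,
`map_sum`, `map_smul`). -/
theorem linearIndependent_eF : LinearIndependent K (eF S) := by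
  rw [linearIndependent_iff']
  intro s g hg i hi
  have h1 := congrArg (Frame_coL S i) hg
  rw [map_sum, map_zero] at h1
  simp only [map_smul, Frame_coL_apply, co_eF, smul_eq_mul, mul_ite, mul_one, mul_zero] at h1
  rw [Finset.sum_ite_eq s i g, if_pos hi] at h1
  exact h1

/-- (FR3) `eq_sum_red` with `n = (-ord f).toNat`; every pole order `w` is a `wt i` (`exists_wt_eq`). -/
theorem span_eF : ⊤ ≤ Submodule.span K (Set.range (eF S)) := by
  intro f _
  have hn : (f : F) = 0 ∨ -(((-S.oo.ord (f : F)).toNat : ℕ) : ℤ) ≤ S.oo.ord (f : F) := by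
    by_cases hf : f = 0
    · left
      rw [hf]
      rfl
    · right
      have := Frame_ord_le S f hf
      omega
  have h1 := eq_sum_red (polesOnly_ROm S) (f := (f : F)) f.2 _ hn
  have h2 : f = ∑ w ∈ (Finset.range ((-S.oo.ord (f : F)).toNat + 1)).filter (PoleOf S (ROm S)),
      S.co (-(w : ℤ)) (f : F) • (⟨red S (ROm S) w,
        (Subalgebra.mem_toSubmodule _).1 (red_mem (S := S) (V := ROm S) w)⟩ : RO S.oo) := by
    apply Subtype.ext
    refine h1.trans ?_
    exact (map_sum (RO S.oo).val (fun w : ℕ => S.co (-(w : ℤ)) (f : F) • (⟨red S (ROm S) w,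
        (Subalgebra.mem_toSubmodule _).1 (red_mem (S := S) (V := ROm S) w)⟩ : RO S.oo)) _).symm
  rw [h2]
  refine Submodule.sum_mem _ fun w hw => Submodule.smul_mem _ _ ?_
  obtain ⟨i, rfl⟩ := exists_wt_eq S (Finset.mem_filter.mp hw).2
  exact Submodule.subset_span ⟨i, rfl⟩

/-- the basis. -/
def basis : Module.Basis ℕ K (RO S.oo) := Module.Basis.mk (linearIndependent_eF S) (span_eF S)

@[simp] theorem basis_apply (i : ℕ) : basis S i = eF S i := Module.Basis.mk_apply _ _ i

/-- (FR4) **coordinates = coefficients**: write `f = ∑ (repr f i) • e i` (`Module.Basis.sum_repr` /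
`Module.Basis.linearCombination_repr`) and apply the linear map `co (-wt l) ∘ val`, using `co_eF`. -/
theorem repr_eq_co (f : RO S.oo) (l : ℕ) :
    (basis S).repr f l = S.co (-(wt S l : ℤ)) (f : F) := by
  have h : (Finsupp.lapply l) ∘ₗ ((basis S).repr : RO S.oo →ₗ[K] (ℕ →₀ K)) = Frame_coL S l := by
    apply (basis S).ext
    intro i
    rw [LinearMap.comp_apply, LinearEquiv.coe_coe, Module.Basis.repr_self, Finsupp.lapply_apply,
      Finsupp.single_apply, basis_apply, Frame_coL_apply, co_eF]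
    by_cases hil : i = l
    · rw [if_pos hil, if_pos hil.symm]
    · rw [if_neg hil, if_neg (fun h => hil h.symm)]
  exact LinearMap.congr_fun h f

/-- (FR5) `eF 0 = 1` (`1` is reduced of pole order `0 = wt 0`: `S.co_one`; `IsRed.unique`). -/
theorem eF_zero : eF S 0 = 1 := by
  apply Subtype.ext
  refine (isRed_eF S 0).unique (polesOnly_ROm S) ?_
  rw [wt_zero]
  refine ⟨(RO S.oo).one_mem, by simp [Place.ord_one], by simpa using S.co_one, fun w' hw' => ?_⟩
  exact absurd hw' (Nat.not_lt_zero _)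

theorem Frame_ord_mul (i j : ℕ) :
    S.oo.ord (((basis S i * basis S j : RO S.oo)) : F) = -(wt S i : ℤ) - (wt S j : ℤ) := by
  rw [basis_apply, basis_apply]
  show S.oo.ord ((eF S i : F) * (eF S j : F)) = _
  rw [Place.ord_mul _ (Frame_eF_ne_zero S i) (Frame_eF_ne_zero S j), Frame_ord_eF, Frame_ord_eF]
  ring

theorem Frame_mul_ne_zero (i j : ℕ) : (((basis S i * basis S j : RO S.oo)) : F) ≠ 0 := by
  rw [basis_apply, basis_apply]
  exact mul_ne_zero (Frame_eF_ne_zero S i) (Frame_eF_ne_zero S j)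

/-- (FR6) `repr_eq_co`, `co_of_lt`, `ord (e i * e j) = -(wt i + wt j)`. -/
theorem repr_mul_of_lt (i j l : ℕ) (h : wt S i + wt S j < wt S l) :
    (basis S).repr (basis S i * basis S j) l = 0 := by
  rw [repr_eq_co]
  refine S.co_of_lt _ _ (Frame_mul_ne_zero S i j) ?_
  rw [Frame_ord_mul]
  omega

/-- (FR7) `repr_eq_co`, `co_ord`. -/
theorem repr_mul_of_eq (i j l : ℕ) (h : wt S l = wt S i + wt S j) :
    (basis S).repr (basis S i * basis S j) l ≠ 0 := by
  rw [repr_eq_co]
  have h1 := S.co_ord _ (Frame_mul_ne_zero S i j)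
  rw [Frame_ord_mul] at h1
  have e : -(wt S l : ℤ) = -(wt S i : ℤ) - (wt S j : ℤ) := by rw [h]; push_cast; ring
  rw [e]
  exact h1

/-- **The frame.** -/
def frame : Frame K (RO S.oo) where
  g := genusFF K F
  e := basis S
  wt := wt S
  wt_strictMono := wt_strictMono S
  wt_zero := wt_zero S
  e_zero := by rw [basis_apply, eF_zero S]
  wt_large := wt_large S
  wt_add := wt_add S
  mul_le := repr_mul_of_lt S
  mul_lead := repr_mul_of_eq S

@[simp] theorem frame_e : (frame S).e = basis S := rfl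
@[simp] theorem frame_wt : (frame S).wt = wt S := rfl
@[simp] theorem frame_g : (frame S).g = genusFF K F := rfl

/-- (FR8) the degree of the frame is the pole order (`Frame.deg`, `repr_eq_co`: the support of `repr f` contains
`l` with `wt l = -ord f` by `co_ord`, and no `l` with `wt l > -ord f` by `co_of_lt`). -/
theorem frame_deg (f : RO S.oo) (hf : f ≠ 0) : ((frame S).deg f : ℤ) = -S.oo.ord (f : F) := by
  have hf' : (f : F) ≠ 0 := fun h => hf (Subtype.ext h)
  have hle := Frame_ord_le S f hf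
  obtain ⟨n, hn⟩ : ∃ n : ℕ, S.oo.ord (f : F) = -(n : ℤ) := ⟨(-S.oo.ord (f : F)).toNat, by omega⟩
  obtain ⟨l, hl⟩ := exists_wt_eq S (w := n) ⟨(f : F), f.2, hf', hn⟩
  have h1 : (frame S).deg f = n := by
    unfold Frame.deg
    apply le_antisymm
    · refine Finset.sup_le fun l' hl' => ?_
      rw [Finsupp.mem_support_iff, frame_e, repr_eq_co] at hl'
      by_contra hcon
      apply hl'
      refine S.co_of_lt _ _ hf' ?_
      rw [hn]
      have : n < wt S l' := not_le.mp hcon
      omega
    · have hmem : l ∈ ((frame S).e.repr f).support := by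
        rw [Finsupp.mem_support_iff, frame_e, repr_eq_co, hl, ← hn]
        exact S.co_ord _ hf'
      have := Finset.le_sup (f := (frame S).wt) hmem
      rw [frame_wt, hl] at this
      exact this
  rw [h1, hn]
  ring

/-- (FR9) (`Frame.lt_dim_iff`, `wt_le_iff`) -/
theorem frame_dim (n : ℕ) : (frame S).dim n = ell (n • pt S.oo) := by
  have h : ∀ i, i < (frame S).dim n ↔ i < ell (n • pt S.oo) := fun i => by
    rw [(frame S).lt_dim_iff, frame_wt, wt_le_iff]
  rcases lt_trichotomy ((frame S).dim n) (ell (n • pt S.oo)) with h1 | h1 | h1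
  · exact absurd ((h _).2 h1) (lt_irrefl _)
  · exact h1
  · exact absurd ((h _).1 h1) (lt_irrefl _)

/-- (FR10) `f = ∑_{i < dim n} co(-wt i) f • e i` for `f ∈ L(n oo)`. -/
theorem eq_sum_of_mem_L (n : ℕ) (f : RO S.oo) (hf : (f : F) ∈ riemannRochSpace (n • pt S.oo)) :
    f = ∑ i ∈ (frame S).idx n, S.co (-(wt S i : ℤ)) (f : F) • basis S i := by
  have h1 := (basis S).linearCombination_repr f
  rw [Finsupp.linearCombination_apply, Finsupp.sum] at h1
  have hsub : ((basis S).repr f).support ⊆ (frame S).idx n := by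
    intro i hi
    rw [Finsupp.mem_support_iff, repr_eq_co] at hi
    rw [(frame S).mem_idx, frame_wt]
    have hf0 : (f : F) ≠ 0 := by
      intro h0
      rw [h0, map_zero] at hi
      exact hi rfl
    have h2 : -(n : ℤ) ≤ S.oo.ord (f : F) :=
      (((mem_L_nsmul_iff S n (f : F)).1 hf).2).resolve_left hf0
    by_contra hcon
    apply hi
    refine S.co_of_lt _ _ hf0 ?_
    have : n < wt S i := not_le.mp hcon
    omega
  rw [Finset.sum_subset hsub (fun i _ hi => by
    rw [Finsupp.notMem_support_iff.mp hi, zero_smul])] at h1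
  simp only [repr_eq_co] at h1
  exact h1.symm

end Fermat.Agent.S17.BR
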