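import Fermat.Agent.S17.BR.Echelon

/-!
# S17 / BR, leaf GP: the semigroup of non-gaps at `oo` and its enumeration `wt`.
-/

set_option autoImplicit false
set_option linter.unusedSectionVars false

noncomputable section

namespace Fermat.Agent.S17.BR

open AlgebraicCurve Fermat.Agent.Lib.RR Fermat.Agent.GAL.RED Fermat.Agent.DR.Nodal

open scoped Classical

variable {K F Γ : Type} [Field K] [Field F] [Algebra K F] [Group Γ] [IsFF K F] [IsAlgClosed K]
  (S : Setup K F Γ)

/-- (GP1) `L(n oo) = {f ∈ RO oo | ord_oo f ≥ -n}` (`mem_riemannRochSpace_iff`, `mem_RO`,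
`Finsupp.single_apply`). -/
theorem mem_L_nsmul_iff (n : ℕ) (f : F) : f ∈ riemannRochSpace (n • pt S.oo) ↔
    f ∈ RO S.oo ∧ (f = 0 ∨ -(n : ℤ) ≤ S.oo.ord f) := by
  rw [mem_riemannRochSpace_iff, mem_RO]
  constructor
  · intro h
    refine ⟨fun P hP => ?_, ?_⟩
    · rcases h P with rfl | h1
      · simp
      · rw [Finsupp.smul_apply, Finsupp.single_apply, if_neg (Ne.symm hP)] at h1
        simpa using h1
    · rcases h S.oo with h1 | h1
      · exact Or.inl h1
      · right
        rw [Finsupp.smul_apply, Finsupp.single_apply, if_pos rfl] at h1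
        simpa using h1
  · rintro ⟨h1, h2⟩ v
    by_cases hv : v = S.oo
    · subst hv
      rcases h2 with h2 | h2
      · exact Or.inl h2
      · right
        rw [Finsupp.smul_apply, Finsupp.single_apply, if_pos rfl]
        simpa using h2
    · right
      rw [Finsupp.smul_apply, Finsupp.single_apply, if_neg (Ne.symm hv)]
      simpa using h1 v hv

/-- (GP2) a nonzero function regular outside `oo` has `ord_oo ≤ 0`: otherwise `f ∈ L(0)` is a constant
(`RED.mem_range_of_ord_nonneg`) of order `0` (`RED.ord_algebraMap`). -/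
theorem polesOnly_ROm : PolesOnly S (ROm S) := by
  intro f hf hf0
  by_contra hcon
  push Not at hcon
  have hf' : f ∈ RO S.oo := hf
  have hall : ∀ P : Place K F, 0 ≤ P.ord f := by
    intro P
    by_cases hP : P = S.oo
    · rw [hP]; exact hcon.le
    · exact (mem_RO S.oo).1 hf' P hP
  obtain ⟨a, rfl⟩ := mem_range_of_ord_nonneg hall
  rw [Fermat.Agent.GAL.RED.ord_algebraMap] at hcon
  exact lt_irrefl _ hcon

theorem nonGap_zero : NonGap S 0 :=
  ⟨1, (RO S.oo).one_mem, one_ne_zero, by simp⟩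

/-- (`Place.ord_mul`) -/
theorem NonGap.add {a b : ℕ} (ha : NonGap S a) (hb : NonGap S b) : NonGap S (a + b) := by
  obtain ⟨f, hf, hf0, hfo⟩ := ha
  obtain ⟨g, hg, hg0, hgo⟩ := hb
  refine ⟨f * g, (RO S.oo).mul_mem hf hg, mul_ne_zero hf0 hg0, ?_⟩
  rw [S.oo.ord_mul hf0 hg0, hfo, hgo]
  push_cast
  ring

/-- (GP3) `ell ((n+1) oo) = ell (n oo) + [n+1 is a non-gap]`.
`≤ +1`: `ell_add_pt_le`, `deg_eq_one`; `ell_mono`.  If `n+1` is a non-gap, `L(n oo) ≠ L((n+1) oo)`, so `<`
(`Submodule.finrank_lt_finrank_of_lt`, finite dimensionality is an instance of `Lib.RR`); otherwise the two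
spaces are equal by (GP1). -/
theorem ell_succ (n : ℕ) : ell ((n + 1) • pt S.oo) =
    ell (n • pt S.oo) + if NonGap S (n + 1) then 1 else 0 := by
  have hD : (n + 1) • pt S.oo = n • pt S.oo + pt S.oo := succ_nsmul _ _
  have hle : n • pt S.oo ≤ (n + 1) • pt S.oo := by rw [hD]; exact le_add_pt _ _
  have h1 : ell ((n + 1) • pt S.oo) ≤ ell (n • pt S.oo) + 1 := by
    have := ell_add_pt_le (n • pt S.oo) S.oo
    rwa [deg_eq_one, ← hD] at this
  have h2 : ell (n • pt S.oo) ≤ ell ((n + 1) • pt S.oo) := ell_mono hle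
  split_ifs with hg
  · obtain ⟨f, hf, hf0, hfo⟩ := hg
    have hlt : riemannRochSpace (n • pt S.oo) < riemannRochSpace ((n + 1) • pt S.oo) := by
      refine lt_of_le_of_ne (Lib.RR.L_mono hle) fun heq => ?_
      have hmem : f ∈ riemannRochSpace ((n + 1) • pt S.oo) :=
        (mem_L_nsmul_iff S (n + 1) f).2 ⟨hf, Or.inr hfo.ge⟩
      rw [← heq, mem_L_nsmul_iff] at hmem
      rcases hmem.2 with h | h
      · exact hf0 h
      · rw [hfo] at h
        push_cast at h
        omega
    have := Submodule.finrank_lt_finrank_of_lt hlt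
    have h3 : ell (n • pt S.oo) < ell ((n + 1) • pt S.oo) := this
    omega
  · have heq : riemannRochSpace ((n + 1) • pt S.oo) = riemannRochSpace (n • pt S.oo) := by
      refine le_antisymm (fun f hf => ?_) (Lib.RR.L_mono hle)
      rw [mem_L_nsmul_iff] at hf ⊢
      refine ⟨hf.1, ?_⟩
      rcases hf.2 with h | h
      · exact Or.inl h
      · by_cases hf0 : f = 0
        · exact Or.inl hf0
        right
        by_contra hcon
        push Not at hcon
        apply hg
        refine ⟨f, hf.1, hf0, ?_⟩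
        push_cast at h ⊢
        omega
    rw [add_zero, ell, ell, heq]

/-- (GP4) induction with (GP3), `Nat.count_succ`, `ell_zero`, `nonGap_zero`. -/
theorem count_nonGap (n : ℕ) : Nat.count (NonGap S) (n + 1) = ell (n • pt S.oo) := by
  induction n with
  | zero =>
    rw [zero_smul, ell_zero, Nat.count_succ, Nat.count_zero, if_pos (nonGap_zero S)]
  | succ n ih =>
    rw [Nat.count_succ, ih, ell_succ]

/-- (GP5) `ell (n oo) = n + 1 - g` for `n ≥ 2 g - 1` (`ell_eq_of_lt_degree'`, `degree_pt`, `deg_eq_one`). -/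
theorem ell_nsmul_oo (n : ℕ) (hn : 2 * genusFF K F ≤ n + 1) :
    (ell (n • pt S.oo) : ℤ) = n + 1 - genusFF K F := by
  have hdeg : Divisor.degree (n • pt S.oo) = n := by
    rw [map_nsmul, degree_pt, deg_eq_one]
    simp
  rw [ell_eq_of_lt_degree' (by rw [hdeg]; omega), hdeg]

/-- (GP6) from (GP3), (GP5) (`n = 0`: `nonGap_zero`). -/
theorem nonGap_of_le (n : ℕ) (hn : 2 * genusFF K F ≤ n) : NonGap S n := by
  rcases n with _ | n
  · exact nonGap_zero S
  · by_contra hcon
    have h1 := ell_succ S n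
    rw [if_neg hcon, add_zero] at h1
    have h2 := ell_nsmul_oo S n (by omega)
    have h3 := ell_nsmul_oo S (n + 1) (by omega)
    rw [h1] at h3
    push_cast at h3
    omega

theorem infinite_nonGap : (setOf (NonGap S)).Infinite := by
  refine Set.infinite_of_not_bddAbove fun ⟨B, hB⟩ => ?_
  have h := hB (show B + 1 + 2 * genusFF K F ∈ setOf (NonGap S) from
    nonGap_of_le S _ (by omega))
  omega

/-- the `i`-th non-gap. -/
def wt (i : ℕ) : ℕ := Nat.nth (NonGap S) i

theorem wt_strictMono : StrictMono (wt S) := Nat.nth_strictMono (infinite_nonGap S)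

theorem nonGap_wt (i : ℕ) : NonGap S (wt S i) := Nat.nth_mem_of_infinite (infinite_nonGap S) i

/-- (`Nat.nth_count`) -/
theorem exists_wt_eq {w : ℕ} (hw : NonGap S w) : ∃ i, wt S i = w :=
  ⟨Nat.count (NonGap S) w, Nat.nth_count hw⟩

theorem wt_zero : wt S 0 = 0 := by
  have := Nat.nth_count (nonGap_zero S)
  rwa [Nat.count_zero] at this

/-- (GP7) `n := i + g ≥ 2 g` is a non-gap and `count (NonGap) n = ell ((n-1) oo) = i`
(`count_nonGap`, `ell_nsmul_oo`; the case `n = 0` is `wt_zero`); conclude by `Nat.nth_count`. -/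
theorem wt_large (i : ℕ) (hi : genusFF K F ≤ i) : wt S i = i + genusFF K F := by
  have hng : NonGap S (i + genusFF K F) := nonGap_of_le S _ (by omega)
  have hcount : Nat.count (NonGap S) (i + genusFF K F) = i := by
    rcases Nat.eq_zero_or_pos (i + genusFF K F) with h0 | hpos
    · rw [h0, Nat.count_zero]; omega
    · obtain ⟨m, hm⟩ : ∃ m, i + genusFF K F = m + 1 := ⟨i + genusFF K F - 1, by omega⟩
      rw [hm, count_nonGap]
      have h2 := ell_nsmul_oo S m (by omega)
      have h3 : ((m : ℤ) + 1) = i + genusFF K F := by exact_mod_cast hm.symm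
      omega
  have := Nat.nth_count hng
  rwa [hcount] at this

theorem wt_add (i j : ℕ) : ∃ l, wt S l = wt S i + wt S j :=
  exists_wt_eq S ((nonGap_wt S i).add S (nonGap_wt S j))

/-- (GP8) `#{i | wt i ≤ n} = ell (n oo)`: `wt i ≤ n ↔ i < count (NonGap) (n+1)`
(`Nat.lt_nth_iff_count_lt`/`Nat.count_nth`, `Nat.count_monotone`, …). -/
theorem wt_le_iff (i n : ℕ) : wt S i ≤ n ↔ i < ell (n • pt S.oo) := by
  rw [← count_nonGap, ← Nat.lt_succ_iff, wt]
  exact (Nat.lt_nth_iff_count_lt (infinite_nonGap S)).symm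

end Fermat.Agent.S17.BR
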