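import Fermat.Agent.GAL.FF.General
import Fermat.Agent.GAL.FF.Corollaries

/-!
# S17 / BR, leaf G1: subtracting general points from finitely many divisors.

`K` algebraically closed, `F / K` a function field (`IsFF`).
-/

set_option autoImplicit false
set_option linter.unusedSectionVars false

namespace Fermat.Agent.S17.BR

open AlgebraicCurve Fermat.Agent.Lib.RR Fermat.Agent.GAL.FF Fermat.Agent.GAL.FF.General

variable {K F : Type*} [Field K] [IsAlgClosed K] [Field F] [Algebra K F] [IsFF K F]

/-- The support of an effective divisor has at most `deg` elements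
(`Divisor.degree E = ∑_{v ∈ supp} E v * deg v`, `deg v = 1` (`General_deg_eq_one`), `E v ≥ 1`;
see `Lib.RR.Basic_degree_eq_sum`). -/
theorem card_support_le_degree {E : Divisor K F} (hE : 0 ≤ E) :
    (E.support.card : ℤ) ≤ Divisor.degree E := by
  rw [Basic_degree_eq_sum, Finsupp.sum, Finset.card_eq_sum_ones, Nat.cast_sum]
  refine Finset.sum_le_sum fun v hv => ?_
  have h1 : 0 ≤ E v := hE v
  have h2 : E v ≠ 0 := Finsupp.mem_support_iff.1 hv
  rw [General_deg_eq_one]
  push_cast
  omega

/-- The base points of `|A|`: outside a set of at most `deg A` places, `ℓ(A - v) = ℓ(A) - 1`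
(truncated subtraction).
PROOF. If `ℓ(A) = 0` take `s = ∅` (`ell_le_of_le`/`L_mono`: `ℓ(A - v) ≤ ℓ(A) = 0`).  Otherwise
`ell_pos_iff` gives `f ≠ 0` in `L(A)`, `s := (divOf f + A).support` as in `exists_finset_ell_sub_pt`
(`ell_sub_pt_of_ord_eq`), `card_support_le_degree`, `degree_divOf`. -/
theorem exists_finset_card_le (A : Divisor K F) (b : ℕ) (hb : Divisor.degree A ≤ b) :
    ∃ s : Finset (Place K F), s.card ≤ b ∧ ∀ v ∉ s, ell (A - pt v) = ell A - 1 := by
  by_cases h : 0 < ell A
  · obtain ⟨f, hf, hfA⟩ := ell_pos_iff.1 h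
    refine ⟨(divOf f + A).support, ?_, fun v hv => ?_⟩
    · have hE : (0 : Divisor K F) ≤ divOf f + A := by
        intro v
        rw [mem_riemannRochSpace_iff] at hfA
        have := (hfA v).resolve_left hf
        rw [Finsupp.add_apply, divOf_apply]
        have h0 : (0 : Divisor K F) v = 0 := rfl
        rw [h0]
        omega
      have h1 := card_support_le_degree hE
      rw [map_add, degree_divOf, zero_add] at h1
      exact_mod_cast h1.trans hb
    · have h1 : ell (A - pt v) + 1 = ell A := by
        refine ell_sub_pt_of_ord_eq hf hfA ?_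
        rw [Finsupp.notMem_support_iff, Finsupp.add_apply, divOf_apply] at hv
        omega
      omega
  · refine ⟨∅, by simp, fun v _ => ?_⟩
    have h1 := ell_mono (General_sub_pt_le A v)
    omega

/-- Subtracting `n` points of a big enough finite set `𝒮` from finitely many divisors `A i` of degree
`≤ b`: all the `ℓ(A i)` drop by `n` (truncated subtraction).
PROOF. Induction on `n`; `E_{n+1} = E_n + pt v` with `v ∈ 𝒮` outside the union of the sets `s_i` of
`exists_finset_card_le (A i - E_n) b` (`deg (A i - E_n) ≤ deg (A i) ≤ b` as `E_n ≥ 0`: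
`degree_nonneg`); the union has at most `card ι * b < 𝒮.card` elements (`Finset.card_biUnion_le`,
`Finset.exists_mem_notMem_of_card_lt_card`).  `A i - (E_n + pt v) = A i - E_n - pt v`,
`Nat.sub_sub`. -/
theorem exists_general_points {ι : Type*} [Fintype ι] (𝒮 : Finset (Place K F)) (b : ℕ)
    (A : ι → Divisor K F) (hdeg : ∀ i, Divisor.degree (A i) ≤ b)
    (hcard : Fintype.card ι * b < 𝒮.card) (n : ℕ) :
    ∃ E : Divisor K F, 0 ≤ E ∧ Divisor.degree E = n ∧ E.support ⊆ 𝒮 ∧
      ∀ i, ell (A i - E) = ell (A i) - n := by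
  classical
  induction n with
  | zero => exact ⟨0, le_rfl, by simp, by simp, fun i => by simp⟩
  | succ n ih =>
    obtain ⟨E, hE0, hEd, hEs, hE⟩ := ih
    have hex : ∀ i, ∃ s : Finset (Place K F), s.card ≤ b ∧
        ∀ v ∉ s, ell (A i - E - pt v) = ell (A i - E) - 1 := fun i =>
      exists_finset_card_le (A i - E) b (by
        rw [map_sub]
        have := degree_nonneg hE0
        have := hdeg i
        omega)
    choose s hs hsv using hex
    have hcard' : (Finset.univ.biUnion s).card < 𝒮.card := by
      refine lt_of_le_of_lt (Finset.card_biUnion_le.trans ?_) hcard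
      calc ∑ i, (s i).card ≤ ∑ _i : ι, b := Finset.sum_le_sum fun i _ => hs i
        _ = Fintype.card ι * b := by rw [Finset.sum_const, smul_eq_mul, Finset.card_univ]
    obtain ⟨v, hv𝒮, hv⟩ := Finset.exists_mem_notMem_of_card_lt_card hcard'
    refine ⟨E + pt v, ?_, ?_, ?_, fun i => ?_⟩
    · exact hE0.trans (le_add_pt E v)
    · rw [map_add, hEd, General_degree_pt]
      push_cast
      ring
    · refine Finsupp.support_add.trans (Finset.union_subset hEs ?_)
      intro w hw
      have : w = v := by
        by_contra hne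
        rw [Finsupp.mem_support_iff] at hw
        apply hw
        simp [pt, Ne.symm hne]
      rw [this]
      exact hv𝒮
    · rw [← sub_sub, hsv i v (fun h => hv (Finset.mem_biUnion.2 ⟨i, Finset.mem_univ i, h⟩)), hE i,
        Nat.sub_sub]

/-- The effective divisors of degree `n` supported in `𝒮` form a finite set
(they lie in `Set.Icc 0 (n • ∑ v ∈ 𝒮, pt v)`, `Set.finite_Icc`; `E v ≤ deg E` for effective `E`). -/
theorem finite_effective_supported (𝒮 : Finset (Place K F)) (n : ℕ) :
    {E : Divisor K F | 0 ≤ E ∧ Divisor.degree E = n ∧ E.support ⊆ 𝒮}.Finite := by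
  classical
  -- inject into functions `𝒮 → {0, …, n}`
  refine Set.Finite.of_finite_image (f := fun E : Divisor K F => fun v : 𝒮 => E v)
    ((Set.Finite.pi' fun _ : 𝒮 => Set.finite_Icc (0 : ℤ) n).subset ?_) ?_
  · rintro _ ⟨E, ⟨hE0, hEd, -⟩, rfl⟩ v
    refine ⟨hE0 v, ?_⟩
    have h1 : (E v : ℤ) • pt (v : Place K F) ≤ E := by
      intro w
      by_cases hw : w = v
      · subst hw
        simp [pt]
      · have : ((E v : ℤ) • pt (v : Place K F)) w = 0 := by
          simp [pt, Ne.symm hw]
        rw [this]
        exact hE0 w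
    have h2 := degree_mono h1
    rw [map_zsmul, General_degree_pt, hEd] at h2
    simpa using h2
  · rintro E ⟨-, -, hEs⟩ E' ⟨-, -, hEs'⟩ h
    ext v
    by_cases hv : v ∈ 𝒮
    · exact congrFun h ⟨v, hv⟩
    · rw [Finsupp.notMem_support_iff.1 fun h' => hv (hEs h'),
        Finsupp.notMem_support_iff.1 fun h' => hv (hEs' h')]

end Fermat.Agent.S17.BR
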