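import Fermat.Agent.S17.BR.Move4

/-!
# S17 / BR, moving lemma, part 5: the moving lemma.
-/

set_option autoImplicit false
set_option linter.unusedSectionVars false

noncomputable section

namespace Fermat.Agent.S17.BR

open AlgebraicCurve Fermat.Agent.Lib.RR Fermat.Agent.Lib.PlaceEval Fermat.Agent.GAL.RED
  Fermat.Agent.DR.Nodal

open scoped Classical

variable {K F Γ : Type} [Field K] [Field F] [Algebra K F] [Group Γ] [IsFF K F] [IsAlgClosed K]

/-- (MV5a) a reduced effective divisor not containing `oo` is a `divSet`: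
`D := (Z.support.subtype (· ≠ oo)).map ptOf` or `Z.support.attach.image …` (`setOfPlaces`); compare the values at every place
`P`: for `P = oo` `divSet_apply_oo`; for `P ≠ oo` write `P = placeOf (ptOf P)` (`placeOf_ptOf`) and use `divSet_apply`. -/
theorem exists_divSet_eq (oo : Place K F) (Z : Divisor K F) (h0 : 0 ≤ Z) (h1 : ∀ P, Z P ≤ 1)
    (hoo : Z oo = 0) : ∃ D : Finset (RO oo →ₐ[K] K), divSet oo D = Z := by
  refine ⟨setOfPlaces oo (Z.support.subtype (· ≠ oo)), ?_⟩
  ext P
  by_cases hP : P = oo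
  · rw [hP, divSet_apply_oo, hoo]
  · have h1' := divSet_apply oo (setOfPlaces oo (Z.support.subtype (· ≠ oo))) (ptOf oo P hP)
    rw [placeOf_ptOf] at h1'
    rw [h1']
    have h2 : ptOf oo P hP ∈ setOfPlaces oo (Z.support.subtype (· ≠ oo)) ↔ Z P ≠ 0 := by
      unfold setOfPlaces
      rw [Finset.mem_map]
      constructor
      · rintro ⟨⟨P', hP'⟩, hmem, heq⟩
        have h3 : P' = P := by
          have heq' : ptOf oo P' hP' = ptOf oo P hP := heq
          have := congrArg (placeOf oo) heq'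
          rwa [placeOf_ptOf, placeOf_ptOf] at this
        subst h3
        rw [Finset.mem_subtype] at hmem
        exact Finsupp.mem_support_iff.1 hmem
      · intro h
        exact ⟨⟨P, hP⟩, by rw [Finset.mem_subtype]; exact Finsupp.mem_support_iff.2 h, rfl⟩
    have h3 := h0 P
    have h4 := h1 P
    simp only [Finsupp.coe_zero, Pi.zero_apply] at h3
    by_cases h5 : Z P = 0
    · rw [if_neg (fun h => (h2.1 h) h5), h5]
    · rw [if_pos (h2.2 h5)]
      omega

variable [CharZero K] {S : Setup K F Γ} (Q : RatField S)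

/-- (MV5) **Moving lemma.**  `(e, A, _, hA0, hAx, hfix) := exists_rep_fixed_by_all S.oo (-x)`; `A` is `H`-stable (`hfix`, `S.ρ_oo`,
`smul_neg`, `hx`).  `D₀ := (d + e) • pt oo - A`: `D₀ P = - A P ≤ 0` for `P ≠ oo`, stable (`smul_sub`, `smul_single`), of degree `d`
(`deg A = e` because `A - e oo` has degree `0`; `degree_pt`, `deg_eq_one`).  `f` from `exists_fixed_reduced` with
`T' := insert oo (T.image (placeOf oo))`.  `Z := divOf f + D₀`: `0 ≤ Z` (`mem_L_iff`), `Z P ≤ 1`, `Z oo = 0`; `D` from (MV5a).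
`#D = deg Z = d` (`degree_divSet`, `degree_divOf`).  `RatD`: `ratD_of_stableDiv`, `FixedBy.stableDiv_divOf`.
`cl D = [Z - d oo] = [divOf f - (A - e oo)] = -(-x) = x` (`QuotientAddGroup.eq`; idioms as in `S17/Unr/MinDiv.lean`).
Disjoint from `T`: `χ ∈ D ∩ T` gives `Z (placeOf χ) = 1` (`divSet_apply`) and `= 0`. -/
theorem moving [Infinite Q.k0] (x : Pic0 K F) (hx : ∀ γ ∈ Q.H, S.ρ γ • x = x) (d : ℕ)
    (hd : 2 * genusFF K F + 1 ≤ d) (T : Finset (RO S.oo →ₐ[K] K)) :
    ∃ D : Finset (RO S.oo →ₐ[K] K), RatD S Q D ∧ D.card = d ∧ cl S.oo D = x ∧ Disjoint D T := by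
  obtain ⟨e, A, hAdeg, hA0, hAx, hfix⟩ := exists_rep_fixed_by_all S.oo (-x)
  have hAst : StableDiv S Q A := fun γ hγ =>
    hfix (S.ρ γ) (S.ρ_oo γ) (by rw [smul_neg, hx γ hγ])
  set D₀ : Divisor K F := (d + e) • pt S.oo - A with hD₀
  have hD₀le : ∀ P, P ≠ S.oo → D₀ P ≤ 0 := by
    intro P hP
    have h1 := hA0 P
    simp only [Finsupp.coe_zero, Pi.zero_apply] at h1
    have h2 : (pt S.oo : Divisor K F) P = 0 := by
      rw [pt, Finsupp.single_apply, if_neg (Ne.symm hP)]
    rw [hD₀, Finsupp.sub_apply, Finsupp.smul_apply, h2, smul_zero]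
    omega
  have hst : StableDiv S Q D₀ := by
    intro γ hγ
    rw [hD₀, smul_sub, hAst γ hγ, smul_comm, pt, SemilinearAut.smul_single, S.ρ_oo]
  have hdegA : Divisor.degree A = e := by
    have h1 : Divisor.degree (A - e • pt S.oo) = 0 := hAdeg
    rw [map_sub, map_nsmul, degree_pt, deg_eq_one] at h1
    simp only [Nat.cast_one, nsmul_eq_mul, mul_one] at h1
    omega
  have hdegD₀ : Divisor.degree D₀ = d := by
    rw [hD₀, map_sub, map_nsmul, degree_pt, deg_eq_one, hdegA]
    simp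
  obtain ⟨f, hfL, hf0, hffix, hred, hT⟩ := exists_fixed_reduced Q D₀ hD₀le hst
    (by rw [hdegD₀]; exact_mod_cast hd) (insert S.oo (T.image (placeOf S.oo)))
  set Z : Divisor K F := divOf f + D₀ with hZ
  have hZ0 : 0 ≤ Z := (mem_L_iff.1 hfL).resolve_left hf0
  have hZap : ∀ P, Z P = P.ord f + D₀ P := fun P => by
    rw [hZ, Finsupp.add_apply, divOf_apply]
  have hZ1 : ∀ P, Z P ≤ 1 := fun P => by rw [hZap]; exact hred P
  have hZoo : Z S.oo = 0 := by rw [hZap]; exact hT S.oo (Finset.mem_insert_self _ _)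
  obtain ⟨D, hD⟩ := exists_divSet_eq S.oo Z hZ0 hZ1 hZoo
  have hcard : D.card = d := by
    have := degree_divSet S.oo D
    rw [hD, hZ, map_add, degree_divOf, zero_add, hdegD₀] at this
    exact_mod_cast this.symm
  refine ⟨D, ?_, hcard, ?_, ?_⟩
  · apply ratD_of_stableDiv Q
    rw [hD]
    intro γ hγ
    rw [hZ, smul_add, hffix.stableDiv_divOf Q γ hγ, hst γ hγ]
  · have h1 : cl S.oo D + Pic0.mk ⟨_, hAdeg⟩ = 0 := by
      unfold cl
      rw [← Pic0.mk_add]
      unfold Pic0.mk
      rw [QuotientAddGroup.eq_zero_iff, AddSubgroup.mem_addSubgroupOf]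
      refine ⟨f, hf0, fun v => ?_⟩
      have h2 : (((⟨divSet S.oo D - D.card • pt S.oo, divSet_sub_mem S.oo D⟩ :
          Divisor.degZero (K := K) (F := F)) + ⟨A - e • pt S.oo, hAdeg⟩ :
          Divisor.degZero (K := K) (F := F)) : Divisor K F) = divOf f := by
        rw [AddSubgroup.coe_add]
        show divSet S.oo D - D.card • pt S.oo + (A - e • pt S.oo) = divOf f
        rw [hD, hcard, hZ, hD₀, add_smul]
        abel
      rw [h2, divOf_apply]
    rw [hAx] at h1
    exact sub_eq_zero.1 (by rw [sub_eq_add_neg]; exact h1)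
  · rw [Finset.disjoint_left]
    intro χ hχD hχT
    have h1 := divSet_apply S.oo D χ
    rw [if_pos hχD, hD, hZap] at h1
    have h2 := hT (placeOf S.oo χ)
      (Finset.mem_insert_of_mem (Finset.mem_image_of_mem _ hχT))
    omega

end Fermat.Agent.S17.BR
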