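import Fermat.Agent.S17.BR.Defs

/-!
# S17 / BR, leaf PT: points of `RO oo` = places `≠ oo`; the class map `cl`.
-/

set_option autoImplicit false
set_option linter.unusedSectionVars false

noncomputable section

namespace Fermat.Agent.S17.BR

open AlgebraicCurve Fermat.Agent.Lib.RR Fermat.Agent.Lib.PlaceEval Fermat.Agent.GAL.RED
  Fermat.Agent.DR.Nodal

open scoped Classical

variable {K F : Type} [Field K] [Field F] [Algebra K F] [IsFF K F] [IsAlgClosed K]
  (oo : Place K F)

/-- (PT0) there is a non-constant function in `RO oo` (`ell (n • pt oo) ≥ 2` for `n` large: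
`ell_eq_of_lt_degree'`; `mem_riemannRochSpace_iff`; compare `S17/Unr/Stab.lean : exists_only_pole`). -/
theorem exists_nonconstant : ∃ f ∈ RO oo, f ∉ Set.range (algebraMap K F) := by
  set D : Divisor K F := (genusFF K F + 1) • pt oo with hD
  have h1 := riemann_ineq D
  have hdeg : Divisor.degree D = (genusFF K F : ℤ) + 1 := by
    rw [hD, map_nsmul, degree_pt, deg_eq_one]
    simp
  rw [hdeg, ell_zero] at h1
  have h2 : 2 ≤ ell D := by
    have : (2 : ℤ) ≤ ell D := by push_cast at h1; linarith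
    exact_mod_cast this
  have h0 : (0 : Divisor K F) ≤ D := by
    rw [hD]
    exact nsmul_nonneg (by
      have := le_add_pt (0 : Divisor K F) oo
      rwa [zero_add] at this) _
  have h1L : (1 : F) ∈ riemannRochSpace D := by
    apply L_mono h0
    have := algebraMap_mem_L_zero (K := K) (F := F) 1
    rwa [map_one] at this
  obtain ⟨f, hfL, hf⟩ : ∃ f ∈ riemannRochSpace D, f ∉ Set.range (algebraMap K F) := by
    by_contra hcon
    push Not at hcon
    have hle : ell D ≤ 1 := by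
      apply finrank_le_one (⟨1, h1L⟩ : riemannRochSpace D)
      rintro ⟨f, hf⟩
      obtain ⟨c, hc⟩ := hcon f hf
      refine ⟨c, Subtype.ext ?_⟩
      show c • (1 : F) = f
      rw [Algebra.smul_def, mul_one, hc]
    omega
  have hf0 : f ≠ 0 := by
    rintro rfl
    exact hf ⟨0, map_zero _⟩
  refine ⟨f, (mem_RO oo).2 fun Q hQ => ?_, hf⟩
  rcases (mem_riemannRochSpace_iff.1 hfL) Q with h | h
  · exact absurd h hf0
  · have hDQ : D Q = 0 := by
      rw [hD, Finsupp.smul_apply, pt, Finsupp.single_apply, if_neg (fun h => hQ h.symm),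
        smul_zero]
    rw [hDQ] at h
    omega

/-- (PT1) every `K`-algebra homomorphism `χ : RO oo → K` is the evaluation at a place `≠ oo`.
By contradiction: otherwise for every `P ≠ oo` there is `u` with `χ u ≠ ev P u`, and `h := u - χ u ∈ ker χ` is
a unit at `P` (`ev_ne_zero`/`ev_eq_zero_iff`).  Apply `DR.Nodal.mem_ideal_of_local` with `Z = {oo}`,
`I = (ker χ)` mapped to `F` (`Submodule.map (RO oo).val.toLinearMap (RingHom.ker χ).restrictScalars`),
`NN = ∅`, `c = 1`, `hne` from (PT0) (`f - χ f ≠ 0`): `1 ∈ ker χ`, absurd. -/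
theorem exists_place (χ : RO oo →ₐ[K] K) :
    ∃ P : Place K F, P ≠ oo ∧ ∀ f : RO oo, χ f = ev P (f : F) := by
  by_contra hcon
  push Not at hcon
  have hsub : ∀ u : RO oo, χ (u - algebraMap K (RO oo) (χ u)) = 0 := fun u => by
    rw [map_sub, AlgHom.commutes]
    exact sub_self _
  have hmem : ∀ c : F, c ∈ Submodule.map (RO oo).val.toLinearMap (LinearMap.ker χ.toLinearMap) ↔
      ∃ u : RO oo, χ u = 0 ∧ (u : F) = c := fun c => by
    rw [Submodule.mem_map]
    exact Iff.rfl
  have h1 : (1 : F) ∈ Submodule.map (RO oo).val.toLinearMap (LinearMap.ker χ.toLinearMap) := by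
    refine mem_ideal_of_local ({oo} : Set (Place K F)) ⟨oo, rfl⟩ _ ?_ ?_ ∅ ?_ ?_ ?_
      (one_mem (RO oo)) ?_
    · intro c hc
      obtain ⟨u, -, rfl⟩ := (hmem c).1 hc
      exact u.2
    · intro u hu c hc
      obtain ⟨w, hw, rfl⟩ := (hmem c).1 hc
      refine (hmem _).2 ⟨⟨u, hu⟩ * w, ?_, rfl⟩
      rw [map_mul, hw, mul_zero]
    · intro P hP _
      have hP' : P ≠ oo := hP
      obtain ⟨u, hu⟩ := hcon P hP'
      have hreg : 0 ≤ P.ord ((u - algebraMap K (RO oo) (χ u) : RO oo) : F) :=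
        (mem_RO oo).1 (u - algebraMap K (RO oo) (χ u)).2 P hP'
      have hev : ev P ((u - algebraMap K (RO oo) (χ u) : RO oo) : F) ≠ 0 := by
        have h2 : ((u - algebraMap K (RO oo) (χ u) : RO oo) : F) =
            (u : F) - algebraMap K F (χ u) := rfl
        rw [h2, ev_sub P ((mem_RO oo).1 u.2 P hP') (ord_algebraMap P _).ge, ev_algebraMap]
        exact fun h3 => hu (sub_eq_zero.1 h3).symm
      rw [Ne, ev_eq_zero_iff P hreg, not_or] at hev
      exact ⟨_, (hmem _).2 ⟨_, hsub u, rfl⟩, hev.1, le_antisymm (not_lt.1 hev.2) hreg⟩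
    · intro P hP
      exact absurd hP (Set.notMem_empty P)
    · obtain ⟨f, hf, hfc⟩ := exists_nonconstant oo
      refine ⟨_, (hmem _).2 ⟨_, hsub ⟨f, hf⟩, rfl⟩, fun h0 => hfc ⟨χ ⟨f, hf⟩, ?_⟩⟩
      have h2 : f - algebraMap K F (χ ⟨f, hf⟩) = 0 := h0
      exact (sub_eq_zero.1 h2).symm
    · intro P hP
      exact absurd hP (Set.notMem_empty P)
  obtain ⟨u, hu, hu1⟩ := (hmem 1).1 h1
  have hu' : u = 1 := Subtype.ext hu1
  rw [hu', map_one] at hu
  exact one_ne_zero hu

/-- the place of a point. -/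
def placeOf (χ : RO oo →ₐ[K] K) : Place K F := (exists_place oo χ).choose

theorem placeOf_ne (χ : RO oo →ₐ[K] K) : placeOf oo χ ≠ oo := (exists_place oo χ).choose_spec.1

theorem apply_eq_ev (χ : RO oo →ₐ[K] K) (f : RO oo) : χ f = ev (placeOf oo χ) (f : F) :=
  (exists_place oo χ).choose_spec.2 f

theorem ptOf_placeOf (χ : RO oo →ₐ[K] K) : ptOf oo (placeOf oo χ) (placeOf_ne oo χ) = χ :=
  AlgHom.ext fun f => (apply_eq_ev oo χ f).symm

/-- (PT2) functions in `RO oo` separate places (`DR.Nodal.exists_interp` with `T = {P, Q}`,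
`c = indicator of P`). -/
theorem eq_of_ev_eq {P Q : Place K F} (hP : P ≠ oo) (hQ : Q ≠ oo)
    (h : ∀ f : RO oo, ev P (f : F) = ev Q (f : F)) : P = Q := by
  by_contra hne
  obtain ⟨y, hy, hyT⟩ := exists_interp ({oo} : Set (Place K F)) ⟨oo, rfl⟩ {P, Q} (by
    intro R hR
    rw [Finset.mem_insert, Finset.mem_singleton] at hR
    rcases hR with rfl | rfl
    · exact hP
    · exact hQ) (fun R => if R = P then 1 else 0)
  have h1 := hyT P (Finset.mem_insert_self _ _)
  have h2 := hyT Q (Finset.mem_insert_of_mem (Finset.mem_singleton_self _))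
  rw [if_pos rfl] at h1
  rw [if_neg (fun h => hne h.symm)] at h2
  have h3 := h ⟨y, hy⟩
  have h4 : ev P y = ev Q y := h3
  rw [h1, h2] at h4
  exact one_ne_zero h4

theorem placeOf_ptOf (P : Place K F) (hP : P ≠ oo) : placeOf oo (ptOf oo P hP) = P :=
  eq_of_ev_eq oo (placeOf_ne oo _) hP fun f => (apply_eq_ev oo (ptOf oo P hP) f).symm

theorem placeOf_injective : Function.Injective (placeOf oo) := fun χ χ' h => by
  rw [← ptOf_placeOf oo χ, ← ptOf_placeOf oo χ']
  congr 1

/-- `χ f = 0 ↔ f = 0 ∨ 0 < ord` (`apply_eq_ev`, `ev_eq_zero_iff`, `mem_RO`). -/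
theorem apply_eq_zero_iff (χ : RO oo →ₐ[K] K) (f : RO oo) :
    χ f = 0 ↔ f = 0 ∨ 0 < (placeOf oo χ).ord (f : F) := by
  rw [apply_eq_ev, ev_eq_zero_iff _ ((mem_RO oo).1 f.2 _ (placeOf_ne oo χ))]
  refine or_congr_left ?_
  exact ⟨fun h => Subtype.ext h, fun h => by rw [h]; rfl⟩

/-- the effective divisor `∑_{χ ∈ D} (placeOf χ)`. -/
def divSet (D : Finset (RO oo →ₐ[K] K)) : Divisor K F := ∑ χ ∈ D, pt (placeOf oo χ)

/-- (`placeOf_injective`, `Finsupp.single_apply`) -/
theorem divSet_apply (D : Finset (RO oo →ₐ[K] K)) (χ : RO oo →ₐ[K] K) :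
    divSet oo D (placeOf oo χ) = if χ ∈ D then 1 else 0 := by
  unfold divSet
  rw [Finsupp.finsetSum_apply]
  have h1 : ∀ χ' ∈ D, (pt (placeOf oo χ') : Divisor K F) (placeOf oo χ) =
      if χ' = χ then 1 else 0 := by
    intro χ' _
    rw [Finsupp.single_apply]
    by_cases h : χ' = χ
    · rw [if_pos h, if_pos (by rw [h])]
    · rw [if_neg h, if_neg fun h' => h (placeOf_injective oo h')]
  rw [Finset.sum_congr rfl h1, Finset.sum_ite_eq' D χ]

theorem divSet_apply_oo (D : Finset (RO oo →ₐ[K] K)) : divSet oo D oo = 0 := by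
  unfold divSet
  rw [Finsupp.finsetSum_apply]
  refine Finset.sum_eq_zero fun χ _ => ?_
  rw [Finsupp.single_apply, if_neg (placeOf_ne oo χ)]

/-- (`degree_pt`, `RED.deg_eq_one`) -/
theorem degree_divSet (D : Finset (RO oo →ₐ[K] K)) : Divisor.degree (divSet oo D) = D.card := by
  unfold divSet
  rw [map_sum, Finset.sum_congr rfl fun χ _ => by rw [degree_pt, deg_eq_one]]
  simp

theorem divSet_sub_mem (D : Finset (RO oo →ₐ[K] K)) :
    divSet oo D - D.card • pt oo ∈ Divisor.degZero (K := K) (F := F) := by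
  rw [Divisor.mem_degZero, map_sub, degree_divSet, map_nsmul, degree_pt, deg_eq_one]
  simp

/-- `cl D = [∑_{P ∈ D} P - #D ∞]`. -/
def cl (D : Finset (RO oo →ₐ[K] K)) : Pic0 K F := Pic0.mk ⟨_, divSet_sub_mem oo D⟩

/-- (`Finset.sum_union`, `Finset.card_union_of_disjoint`, `Pic0.mk_add`) -/
theorem cl_union (D E : Finset (RO oo →ₐ[K] K)) (h : Disjoint D E) :
    cl oo (D ∪ E) = cl oo D + cl oo E := by
  unfold cl
  rw [← Pic0.mk_add]
  congr 1
  apply Subtype.ext
  change divSet oo (D ∪ E) - (D ∪ E).card • pt oo =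
    (divSet oo D - D.card • pt oo) + (divSet oo E - E.card • pt oo)
  unfold divSet
  rw [Finset.sum_union h, Finset.card_union_of_disjoint h, add_smul]
  abel

/-- `cl D = 0 ↔` the divisor is principal (`QuotientAddGroup.eq_zero_iff`,
`AddSubgroup.mem_addSubgroupOf`). -/
theorem cl_eq_zero_iff (D : Finset (RO oo →ₐ[K] K)) :
    cl oo D = 0 ↔ divSet oo D - D.card • pt oo ∈ Divisor.principal (K := K) (F := F) := by
  unfold cl Pic0.mk
  rw [QuotientAddGroup.eq_zero_iff, AddSubgroup.mem_addSubgroupOf]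

/-- the finite set of points attached to a finite set of places `≠ oo`. -/
def setOfPlaces (T : Finset {P : Place K F // P ≠ oo}) : Finset (RO oo →ₐ[K] K) :=
  T.map ⟨fun P => ptOf oo P.1 P.2, fun P Q h => Subtype.ext (by
    have := congrArg (placeOf oo) h
    rwa [placeOf_ptOf, placeOf_ptOf] at this)⟩

end Fermat.Agent.S17.BR
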