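import Fermat.Agent.S17.BR.Frame
import Fermat.Agent.S17.BR.Points

/-!
# S17 / BR, leaf SM: `Frame.Smooth` for `RO oo`.
-/

set_option autoImplicit false
set_option linter.unusedSectionVars false

noncomputable section

namespace Fermat.Agent.S17.BR

open AlgebraicCurve Fermat.Agent.Lib.RR Fermat.Agent.Lib.PlaceEval Fermat.Agent.GAL.RED
  Fermat.Agent.DR.Nodal

open scoped Classical

variable {K F Γ : Type} [Field K] [Field F] [Algebra K F] [Group Γ] [IsFF K F] [IsAlgClosed K]

/-- (SM1) **functions vanishing to order `≥ 2` at `P` lie in `m_P ^ 2`.** -/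
theorem mem_sq_of_ord (oo : Place K F) (χ : RO oo →ₐ[K] K) (c : RO oo)
    (hc : c = 0 ∨ 2 ≤ (placeOf oo χ).ord (c : F)) :
    c ∈ (RingHom.ker (χ : RO oo →+* K)) ^ 2 := by
  set P := placeOf oo χ with hP
  have hPoo : P ≠ oo := placeOf_ne oo χ
  have hZ : ({oo} : Set (Place K F)).Nonempty := Set.singleton_nonempty oo
  obtain ⟨v, hv, hv1⟩ := exists_unif {oo} hZ P (by simpa using hPoo)
  have hv0 : v ≠ 0 := by
    rintro rfl
    simp at hv1
  let T : Finset (Place K F) := (divOf (K := K) v).support.filter (fun Q => Q ≠ P ∧ Q ≠ oo)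
  obtain ⟨u, hu, hue⟩ := exists_interp {oo} hZ (insert P T) (by
    intro Q hQ
    rcases Finset.mem_insert.1 hQ with rfl | hQ
    · simpa using hPoo
    · simpa using (Finset.mem_filter.1 hQ).2.2) (fun Q => if Q = P then 0 else 1)
  let vR : RO oo := ⟨v, hv⟩
  let uR : RO oo := ⟨u, hu⟩
  let J : Ideal (RO oo) := Ideal.span {vR, uR ^ 2}
  let I : Submodule K F := Submodule.map (RO oo).val.toLinearMap (J.restrictScalars K)
  have hmemI : ∀ x : F, x ∈ I ↔ ∃ y ∈ J, (y : F) = x := by
    intro x
    simp only [I, Submodule.mem_map, Submodule.restrictScalars_mem]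
    rfl
  have hvJ : vR ∈ J := Ideal.subset_span (by simp)
  have huJ : uR ^ 2 ∈ J := Ideal.subset_span (by simp)
  have huP : ev P u = 0 := by
    have := hue P (Finset.mem_insert_self _ _)
    simpa using this
  have key : (c : F) ∈ I := by
    refine mem_ideal_of_local {oo} hZ I ?_ ?_ {P} ?_ ?_ ?_ c.2 ?_
    · intro x hx
      obtain ⟨y, -, rfl⟩ := (hmemI x).1 hx
      exact y.2
    · intro w hw x hx
      obtain ⟨y, hy, rfl⟩ := (hmemI x).1 hx
      exact (hmemI _).2 ⟨⟨w, hw⟩ * y, J.mul_mem_left _ hy, rfl⟩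
    · intro Q hQoo hQP
      have hQoo' : Q ≠ oo := by simpa using hQoo
      have hQP' : Q ≠ P := by simpa using hQP
      by_cases h0 : Q.ord v = 0
      · exact ⟨v, (hmemI _).2 ⟨vR, hvJ, rfl⟩, hv0, h0⟩
      · have hQT : Q ∈ T := by
          refine Finset.mem_filter.2 ⟨?_, hQP', hQoo'⟩
          rw [Finsupp.mem_support_iff, divOf_apply]
          exact h0
        have h1 : ev Q u = 1 := by
          have := hue Q (Finset.mem_insert_of_mem hQT)
          simpa [hQP'] using this
        have hreg : 0 ≤ Q.ord u := (mem_RO oo).1 hu Q hQoo'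
        have hu0 : u ≠ 0 := by
          rintro rfl
          simp at h1
        have hord : Q.ord u = 0 := by
          by_contra hne
          have hpos : 0 < Q.ord u := lt_of_le_of_ne hreg (Ne.symm hne)
          rw [ev_eq_zero_of_pos Q hpos] at h1
          exact zero_ne_one h1
        refine ⟨u ^ 2, (hmemI _).2 ⟨uR ^ 2, huJ, rfl⟩, pow_ne_zero _ hu0, ?_⟩
        rw [ord_pow, hord, mul_zero]
    · intro Q hQ
      have : Q = P := by simpa using hQ
      subst this
      exact ⟨v, (hmemI _).2 ⟨vR, hvJ, rfl⟩, hv1⟩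
    · exact ⟨v, (hmemI _).2 ⟨vR, hvJ, rfl⟩, hv0⟩
    · intro Q hQ
      have : Q = P := by simpa using hQ
      subst this
      rcases hc with h | h
      · left
        rw [h]
        rfl
      · right
        omega
  obtain ⟨y, hy, hyc⟩ := (hmemI _).1 key
  have hyc' : y = c := Subtype.ext hyc
  subst hyc'
  obtain ⟨a, b, hab⟩ := Ideal.mem_span_pair.1 hy
  have hregP : ∀ w : RO oo, 0 ≤ P.ord (w : F) := fun w => (mem_RO oo).1 w.2 P hPoo
  -- `b u²` vanishes to order `≥ 2`
  have hbu : (b : F) * u ^ 2 = 0 ∨ 2 ≤ P.ord ((b : F) * u ^ 2) := by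
    by_cases hb0 : (b : F) = 0
    · left
      rw [hb0, zero_mul]
    by_cases hu0 : u = 0
    · left
      rw [hu0]
      simp
    right
    rw [P.ord_mul hb0 (pow_ne_zero _ hu0), ord_pow]
    have h1 : 0 < P.ord u := by
      rcases (ev_eq_zero_iff P (hregP uR)).1 huP with h | h
      · exact absurd h hu0
      · exact h
    have h2 := hregP b
    push_cast
    omega
  have hav : (a : F) * v = (y : F) + -((b : F) * u ^ 2) := by
    have := congrArg Subtype.val hab
    have h2 : (a : F) * v + (b : F) * u ^ 2 = (y : F) := this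
    rw [← h2]
    ring
  have hav2 : (a : F) * v = 0 ∨ 2 ≤ P.ord ((a : F) * v) := by
    rw [hav]
    apply Ideal_ge_add P 2
    · rcases hc with h | h
      · left
        rw [h]
        rfl
      · exact Or.inr h
    · rcases hbu with h | h
      · left
        rw [h, neg_zero]
      · right
        rwa [ord_neg]
  have hχa : χ a = 0 := by
    rw [apply_eq_zero_iff]
    by_cases ha0 : a = 0
    · exact Or.inl ha0
    right
    have ha0' : (a : F) ≠ 0 := fun h => ha0 (Subtype.ext h)
    rcases hav2 with h | h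
    · exact absurd h (mul_ne_zero ha0' hv0)
    · rw [P.ord_mul ha0' hv0, hv1] at h
      show 0 < P.ord (a : F)
      omega
  have hχv : χ vR = 0 := by
    rw [apply_eq_zero_iff]
    right
    show 0 < P.ord v
    omega
  have hχu : χ uR = 0 := by
    rw [apply_eq_ev]
    exact huP
  rw [← hab]
  apply Ideal.add_mem
  · rw [pow_two]
    exact Ideal.mul_mem_mul hχa hχv
  · exact Ideal.mul_mem_left _ _ (Ideal.pow_mem_pow hχu 2)

/-- (SM2) two functions vanishing at `P` have a nontrivial combination vanishing to order `≥ 2`. -/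
theorem exists_comb_ord (P : Place K F) (a b : F) (ha : a = 0 ∨ 0 < P.ord a)
    (hb : b = 0 ∨ 0 < P.ord b) :
    ∃ α β : K, (α ≠ 0 ∨ β ≠ 0) ∧ (α • a + β • b = 0 ∨ 2 ≤ P.ord (α • a + β • b)) := by
  obtain ⟨π, hπ⟩ := IsDiscreteValuationRing.exists_irreducible P.toValuationSubring
  have ht1 : P.ord (π : F) = 1 := P.ord_coe_irreducible hπ
  set t : F := (π : F) with ht
  have ht0 : t ≠ 0 := by
    intro h0
    rw [h0] at ht1
    simp at ht1
  have hreg : ∀ x : F, (x = 0 ∨ 0 < P.ord x) → 0 ≤ P.ord (x / t) := by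
    rintro x (rfl | hx)
    · simp
    · have hx0 : x ≠ 0 := by
        rintro rfl
        simp at hx
      rw [ord_div P hx0 ht0, ht1]
      omega
  have hfin : ∀ x : F, 0 ≤ P.ord (x / t) → ev P (x / t) = 0 → x = 0 ∨ 2 ≤ P.ord x := by
    intro x h0 h1
    by_cases hx0 : x = 0
    · exact Or.inl hx0
    right
    rcases (ev_eq_zero_iff P h0).1 h1 with h | h
    · exact absurd h (div_ne_zero hx0 ht0)
    · rw [ord_div P hx0 ht0, ht1] at h
      omega
  by_cases hα : ev P (a / t) = 0
  · refine ⟨1, 0, Or.inl one_ne_zero, ?_⟩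
    rw [one_smul, zero_smul, add_zero]
    exact hfin a (hreg a ha) hα
  · refine ⟨ev P (b / t), - ev P (a / t), Or.inr (neg_ne_zero.2 hα), ?_⟩
    have hdiv : (ev P (b / t) • a + (- ev P (a / t)) • b) / t
        = ev P (b / t) • (a / t) + (- ev P (a / t)) • (b / t) := by
      rw [add_div, smul_div_assoc, smul_div_assoc]
    have hs : ∀ (r : K) (x : F), 0 ≤ P.ord x → 0 ≤ P.ord (r • x) := by
      intro r x hx
      rw [Algebra.smul_def]
      exact (mem_iff P).1 (mul_mem ((mem_iff P).2 (ord_algebraMap P r).ge) ((mem_iff P).2 hx))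
    apply hfin
    · rw [hdiv]
      exact (mem_iff P).1 (add_mem ((mem_iff P).2 (hs _ _ (hreg a ha)))
        ((mem_iff P).2 (hs _ _ (hreg b hb))))
    · rw [hdiv, ev_add P (hs _ _ (hreg a ha)) (hs _ _ (hreg b hb)), Lib.PlaceEval.ev_smul,
        Lib.PlaceEval.ev_smul]
      ring

theorem smooth (S : Setup K F Γ) : (frame S).Smooth := by
  intro χ a b ha hb
  have ha' : (a : F) = 0 ∨ 0 < (placeOf S.oo χ).ord (a : F) := by
    rcases (apply_eq_zero_iff S.oo χ a).1 ha with h | h
    · left
      rw [h]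
      rfl
    · exact Or.inr h
  have hb' : (b : F) = 0 ∨ 0 < (placeOf S.oo χ).ord (b : F) := by
    rcases (apply_eq_zero_iff S.oo χ b).1 hb with h | h
    · left
      rw [h]
      rfl
    · exact Or.inr h
  obtain ⟨α, β, hαβ, h⟩ := exists_comb_ord (placeOf S.oo χ) (a : F) (b : F) ha' hb'
  refine ⟨α, β, hαβ, mem_sq_of_ord S.oo χ _ ?_⟩
  rcases h with h | h
  · left
    exact Subtype.ext h
  · exact Or.inr h

end Fermat.Agent.S17.BR
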