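import Fermat.Agent.S17.BR.Zeros
import Fermat.Agent.S17.BR.Good

/-!
# S17 / BR, leaf WD: `ClassData.good_wdg`.

`d = #D ≥ 3 g`, `n = d + g`.  `dim L(n oo) = d + 1`, the kernel of the evaluation `L(n oo) → K^D` is
`L(n oo - D)`, of dimension `ℓ(-y + g oo) = 1`.  So the evaluation is onto, the vectors `(P(e i))_{P ∈ D}`,
`wt i ≤ n`, span `K^d`, and `d` of them form a basis.
-/

set_option autoImplicit false
set_option linter.unusedSectionVars false

noncomputable section

namespace Fermat.Agent.S17.BR

open AlgebraicCurve Fermat.Agent.Lib.RR Fermat.Agent.Lib.PlaceEval Fermat.Agent.GAL.RED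
  Fermat.Agent.DR.Nodal

open scoped Classical

/-- (WD1) PURE MATHLIB.  A spanning family of `K^d` contains a basis: `exists_linearIndependent`
(or `Module.Basis.ofSpan`/`Submodule.exists_fun_fin_finrank_span_eq`) gives `d` independent members;
`Matrix.det_ne_zero` via `Matrix.linearIndependent_cols_iff_isUnit` / `Module.Basis.det`
(`is_basis_iff_det`). -/
theorem exists_det_ne_zero_of_span {K ι : Type*} [Field K] {d : ℕ} (v : ι → Fin d → K)
    (h : Submodule.span K (Set.range v) = ⊤) :
    ∃ J : Fin d → ι, (Matrix.of fun a b => v (J b) a).det ≠ 0 := by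
  obtain ⟨f, hf, -, hli⟩ := Submodule.exists_fun_fin_finrank_span_eq K (Set.range v)
  have hd : Module.finrank K (Submodule.span K (Set.range v)) = d := by
    rw [h, finrank_top, Module.finrank_fin_fun]
  choose J hJ using hf
  refine ⟨fun b => J (Fin.cast hd.symm b), ?_⟩
  have hli' : LinearIndependent K (fun b : Fin d => v (J (Fin.cast hd.symm b))) := by
    have h1 : (fun b : Fin d => v (J (Fin.cast hd.symm b))) = f ∘ (Fin.cast hd.symm) := by
      funext b
      exact hJ _
    rw [h1]
    exact hli.comp _ (Fin.cast_injective _)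
  have h2 : IsUnit (Matrix.of fun b a => v (J (Fin.cast hd.symm b)) a) :=
    Matrix.linearIndependent_rows_iff_isUnit.1 hli'
  rw [Matrix.isUnit_iff_isUnit_det] at h2
  have h3 : (Matrix.of fun a b => v (J (Fin.cast hd.symm b)) a) =
      (Matrix.of fun b a => v (J (Fin.cast hd.symm b)) a).transpose := rfl
  rw [h3, Matrix.det_transpose]
  exact h2.ne_zero

variable {K F Γ : Type} [Field K] [Field F] [Algebra K F] [Group Γ] [IsFF K F] [IsAlgClosed K]

variable {K F Γ : Type} [Field K] [Field F] [Algebra K F] [Group Γ] [IsFF K F] [IsAlgClosed K]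

/-- (WD2) `lcl_eq` for `-y = [-(divSet D - d oo)]`; `-(divSet D - d oo) + g oo = (d + g) oo - divSet D`. -/
theorem ell_of_good (oo : Place K F) {y : Pic0 K F} {D : Finset (RO oo →ₐ[K] K)} (hy : Good oo y)
    (hD : cl oo D = y) : ell ((D.card + genusFF K F) • pt oo - divSet oo D) = 1 := by
  have h1 : -(divSet oo D - D.card • pt oo) ∈ Divisor.degZero (K := K) (F := F) :=
    neg_mem (divSet_sub_mem oo D)
  have h2 : Pic0.mk ⟨_, h1⟩ = -y := by
    rw [← hD]
    rfl
  have h3 := lcl_eq h1 h2 (genusFF K F • pt oo)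
  rw [hy.2] at h3
  rw [h3]
  congr 1
  rw [add_smul]
  abel

/-- (WD3) `f ∈ L(n oo - divSet D) ↔ f ∈ L(n oo)` and `f` vanishes on `D`
(`mem_riemannRochSpace_iff`, `divSet_apply`, `divSet_apply_oo`, `apply_eq_zero_iff`, `placeOf_ptOf`). -/
theorem mem_L_sub_divSet_iff (oo : Place K F) (n : ℕ) (D : Finset (RO oo →ₐ[K] K)) (f : RO oo) :
    (f : F) ∈ riemannRochSpace (n • pt oo - divSet oo D) ↔
      (f : F) ∈ riemannRochSpace (n • pt oo) ∧ ∀ P ∈ D, P f = 0 := by
  rw [mem_riemannRochSpace_iff, mem_riemannRochSpace_iff]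
  constructor
  · intro h
    refine ⟨fun v => ?_, fun P hP => ?_⟩
    · rcases h v with h0 | h1
      · exact Or.inl h0
      · right
        by_cases hv : v = oo
        · subst hv
          rw [Finsupp.sub_apply, divSet_apply_oo, sub_zero] at h1
          exact h1
        · rw [Finsupp.smul_apply, Finsupp.single_apply, if_neg (Ne.symm hv)]
          simpa using (mem_RO oo).1 f.2 v hv
    · rw [apply_eq_zero_iff]
      rcases h (placeOf oo P) with h0 | h1
      · exact Or.inl (Subtype.ext h0)
      · right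
        rw [Finsupp.sub_apply, divSet_apply, if_pos hP, Finsupp.smul_apply, Finsupp.single_apply,
          if_neg (Ne.symm (placeOf_ne oo P))] at h1
        simp at h1
        omega
  · rintro ⟨h1, h2⟩ v
    by_cases hv : v = oo
    · subst hv
      rw [Finsupp.sub_apply, divSet_apply_oo, sub_zero]
      exact h1 v
    · by_cases hf : (f : F) = 0
      · exact Or.inl hf
      right
      have hv' := placeOf_ptOf oo v hv
      rw [Finsupp.sub_apply, Finsupp.smul_apply, Finsupp.single_apply, if_neg (Ne.symm hv)]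
      have h3 := divSet_apply oo D (ptOf oo v hv)
      rw [hv'] at h3
      rw [h3]
      by_cases hm : ptOf oo v hv ∈ D
      · rw [if_pos hm]
        have h4 := h2 _ hm
        rw [apply_eq_zero_iff, hv'] at h4
        rcases h4 with h4 | h4
        · exact absurd (by rw [h4]; rfl) hf
        · simp
          omega
      · rw [if_neg hm]
        simpa using (mem_RO oo).1 f.2 v hv

variable (S : Setup K F Γ)

variable (S : Setup K F Γ)

/-- `L(n oo)` inside `RO oo`. -/
def Lsub (n : ℕ) : Submodule K (RO S.oo) :=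
  (riemannRochSpace (n • pt S.oo)).comap (RO S.oo).val.toLinearMap

/-- the evaluation at the points of `D`. -/
def evD (D : Finset (RO S.oo →ₐ[K] K)) : RO S.oo →ₗ[K] (Fin D.card → K) :=
  LinearMap.pi fun a => (enum D a).toLinearMap

/-- a subspace of `F` contained in `RO oo` has the same dimension as its preimage in `RO oo`. -/
theorem Wdg_finrank_comap (oo : Place K F) (W : Submodule K F) (hW : ∀ f ∈ W, f ∈ RO oo) :
    Module.finrank K (W.comap (RO oo).val.toLinearMap) = Module.finrank K W := by
  have h1 := (Submodule.equivMapOfInjective (RO oo).val.toLinearMap Subtype.val_injective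
    (W.comap (RO oo).val.toLinearMap)).finrank_eq
  rw [h1, Submodule.map_comap_eq, inf_eq_right.2]
  intro f hf
  exact ⟨⟨f, hW f hf⟩, rfl⟩

/-- (WD4) `finrank (Lsub n) = ell (n oo)` (`L(n oo) ⊆ RO oo` by `mem_L_nsmul_iff`; the inclusion induces a
linear equivalence `Lsub n ≃ L(n oo)`: `Submodule.comap`/`LinearEquiv.ofBijective`, `LinearEquiv.finrank_eq`). -/
theorem finrank_Lsub (n : ℕ) : Module.finrank K (Lsub S n) = ell (n • pt S.oo) :=
  Wdg_finrank_comap S.oo _ fun f hf => ((mem_L_nsmul_iff S n f).1 hf).1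

theorem Wdg_divSet_nonneg (oo : Place K F) (D : Finset (RO oo →ₐ[K] K)) : 0 ≤ divSet oo D := by
  unfold divSet
  refine Finset.sum_nonneg fun χ _ => ?_
  have := le_add_pt (0 : Divisor K F) (placeOf oo χ)
  rwa [zero_add] at this

/-- (WD5) same for the kernel of the evaluation, by (WD3). -/
theorem finrank_ker_evD (n : ℕ) (D : Finset (RO S.oo →ₐ[K] K)) :
    Module.finrank K (LinearMap.ker ((evD S D).domRestrict (Lsub S n))) =
      ell (n • pt S.oo - divSet S.oo D) := by
  have h1 := (Submodule.equivMapOfInjective (Lsub S n).subtype Subtype.val_injective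
    (LinearMap.ker ((evD S D).domRestrict (Lsub S n)))).finrank_eq
  rw [h1]
  have h2 : Submodule.map (Lsub S n).subtype (LinearMap.ker ((evD S D).domRestrict (Lsub S n))) =
      (riemannRochSpace (n • pt S.oo - divSet S.oo D)).comap (RO S.oo).val.toLinearMap := by
    ext f
    rw [Submodule.mem_map, Submodule.mem_comap]
    have h3 := mem_L_sub_divSet_iff S.oo n D f
    constructor
    · rintro ⟨⟨g, hg⟩, hk, rfl⟩
      refine h3.2 ⟨hg, fun P hP => ?_⟩
      rw [LinearMap.mem_ker] at hk
      have h4 := congrFun hk (D.equivFin ⟨P, hP⟩)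
      have h5 : enum D (D.equivFin ⟨P, hP⟩) = P := by
        unfold enum
        rw [Equiv.symm_apply_apply]
      have h6 : enum D (D.equivFin ⟨P, hP⟩) g = 0 := h4
      rwa [h5] at h6
    · intro hf
      obtain ⟨h4, h5⟩ := h3.1 hf
      refine ⟨⟨f, h4⟩, ?_, rfl⟩
      rw [LinearMap.mem_ker]
      funext a
      exact h5 _ (D.equivFin.symm a).2
  rw [h2]
  refine Wdg_finrank_comap S.oo _ fun f hf => ?_
  have h3 : n • pt S.oo - divSet S.oo D ≤ n • pt S.oo :=
    sub_le_self _ (Wdg_divSet_nonneg S.oo D)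
  exact ((mem_L_nsmul_iff S n f).1 (L_mono h3 hf)).1

theorem Wdg_finite_Lsub (n : ℕ) : FiniteDimensional K (Lsub S n) := by
  have e := Submodule.equivMapOfInjective (RO S.oo).val.toLinearMap Subtype.val_injective (Lsub S n)
  have hle : Submodule.map (RO S.oo).val.toLinearMap (Lsub S n) ≤
      riemannRochSpace (n • pt S.oo) := Submodule.map_comap_le _ _
  have : FiniteDimensional K (Submodule.map (RO S.oo).val.toLinearMap (Lsub S n)) :=
    Submodule.finiteDimensional_of_le hle
  exact Module.Finite.equiv e.symm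

/-- (WD6) rank-nullity (`LinearMap.finrank_range_add_finrank_ker`, `ell_nsmul_oo`, (WD2), (WD4), (WD5);
`Submodule.eq_top_of_finrank_eq`, `Module.finrank_fin_fun`). -/
theorem evD_surjective {y : Pic0 K F} {D : Finset (RO S.oo →ₐ[K] K)} (hy : Good S.oo y)
    (hD : cl S.oo D = y) (h3 : 3 * genusFF K F ≤ D.card) :
    LinearMap.range ((evD S D).domRestrict (Lsub S (D.card + genusFF K F))) = ⊤ := by
  have := Wdg_finite_Lsub S (D.card + genusFF K F)
  have h1 := LinearMap.finrank_range_add_finrank_ker
    ((evD S D).domRestrict (Lsub S (D.card + genusFF K F)))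
  rw [finrank_ker_evD, finrank_Lsub, ell_of_good S.oo hy hD] at h1
  have h2 := ell_nsmul_oo S (D.card + genusFF K F) (by omega)
  apply Submodule.eq_top_of_finrank_eq
  rw [Module.finrank_fin_fun]
  push_cast at h2
  omega

/-- (WD7) the vectors `evD (e i)`, `i ∈ idx n`, span the range (`eq_sum_of_mem_L`, `map_sum`, `map_smul`). -/
theorem range_le_span (n : ℕ) (D : Finset (RO S.oo →ₐ[K] K)) :
    LinearMap.range ((evD S D).domRestrict (Lsub S n)) ≤
      Submodule.span K (Set.range fun i : (frame S).idx n => evD S D (basis S i)) := by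
  rintro _ ⟨⟨f, hf⟩, rfl⟩
  rw [LinearMap.domRestrict_apply]
  show evD S D f ∈ _
  rw [eq_sum_of_mem_L S n f hf, map_sum]
  refine Submodule.sum_mem _ fun i hi => ?_
  rw [map_smul]
  exact Submodule.smul_mem _ _ (Submodule.subset_span ⟨⟨i, hi⟩, rfl⟩)

/-- (WD8) assembly: (WD1) for `v i = evD (e i)`, `i : idx n`; `I b := (J b : ℕ)`; `Frame.mem_idxFam`,
`Frame.mem_idx`; the two matrices are equal by `rfl`/`Matrix.ext`. -/
theorem good_wdg (y : Pic0 K F) (D : Finset (RO S.oo →ₐ[K] K)) (hy : Good S.oo y)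
    (hD : cl S.oo D = y) (h3 : 3 * (frame S).g ≤ D.card) :
    ∃ I ∈ (frame S).idxFam (D.card + (frame S).g) D.card,
      ((frame S).mat (fun a => ⇑(enum D a)) I).det ≠ 0 := by
  rw [frame_g] at h3 ⊢
  have h1 : Submodule.span K (Set.range fun i : (frame S).idx (D.card + genusFF K F) =>
      evD S D (basis S i)) = ⊤ := by
    rw [eq_top_iff, ← evD_surjective S hy hD h3]
    exact range_le_span S _ D
  obtain ⟨J, hJ⟩ := exists_det_ne_zero_of_span _ h1
  refine ⟨fun b => (J b : ℕ), ?_, hJ⟩
  rw [Frame.mem_idxFam]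
  intro b
  exact (Frame.mem_idx _).1 (J b).2

end Fermat.Agent.S17.BR
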