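import Fermat.Agent.S17.BR.Zeros
import Fermat.Agent.S17.BR.Fiber
import Fermat.Agent.S17.BR.Wdg
import Fermat.Agent.S17.BR.Smooth
import Fermat.Agent.S17.BR.Move5

/-!
# S17 / BR: the abstract `ClassData` of a `Setup` with a `RatField`.
-/

set_option autoImplicit false
set_option linter.unusedSectionVars false

noncomputable section

namespace Fermat.Agent.S17.BR

open AlgebraicCurve Fermat.Agent.Lib.RR Fermat.Agent.Lib.PlaceEval Fermat.Agent.GAL.RED
  Fermat.Agent.DR.Nodal

open scoped Classical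

variable {K F Γ : Type} [Field K] [Field F] [Algebra K F] [Group Γ] [IsFF K F] [IsAlgClosed K]

variable (S : Setup K F Γ) (Q : RatField S)

/-- the `H`-fixed classes. -/
def fixedPic : AddSubgroup (Pic0 K F) where
  carrier := {x | ∀ γ ∈ Q.H, S.ρ γ • x = x}
  zero_mem' := fun _ _ => smul_zero _
  add_mem' := fun {x y} hx hy γ hγ => by rw [smul_add, hx γ hγ, hy γ hγ]
  neg_mem' := fun {x} hx γ hγ => by rw [smul_neg, hx γ hγ]

theorem mem_fixedPic {x : Pic0 K F} : x ∈ fixedPic S Q ↔ ∀ γ ∈ Q.H, S.ρ γ • x = x := Iff.rfl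

/-- **The class data.** -/
def classData [CharZero K] [Infinite Q.k0] (𝒯 : Finset (Pic0 K F))
    (h𝒯 : ∀ t ∈ 𝒯, t ∈ fixedPic S Q)
    (hg : ∀ y : Pic0 K F, ∃ t ∈ 𝒯, Good S.oo (y + t) ∧ Good S.oo (y - t)) :
    ClassData (frame S) Q.k0 (Pic0 K F) where
  G := fixedPic S Q
  cl := cl S.oo
  cl_union := cl_union S.oo
  Rat := RatD S Q
  rat_ratSet := fun _ hD => hD.ratSet Q
  rat_union := fun _ _ hD hE => hD.union Q hE
  principal := principal S Q
  cl_zeros := cl_zeros S
  dvd_of_zeros := dvd_of_zeros S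
  d0 := 2 * genusFF K F + 1
  moving := fun x hx d hd T => moving Q x hx d hd T
  Good := Good S.oo
  good_neg := fun _ h => h.neg
  good_wdg := good_wdg S
  translate := ⟨𝒯, h𝒯, fun y _ => hg y⟩
  fiber_finite := fiber_finite S

end Fermat.Agent.S17.BR
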