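import Fermat.Agent.S17.BR.Rat
import Fermat.Agent.S17.Unr.MinDiv
import Fermat.Agent.GAL.FF.Corollaries

/-!
# S17 / BR, moving lemma, part 0: stable representatives, Riemann-Roch spaces of stable divisors.
-/

set_option autoImplicit false
set_option linter.unusedSectionVars false

noncomputable section

namespace Fermat.Agent.S17.BR

open AlgebraicCurve Fermat.Agent.Lib.RR Fermat.Agent.Lib.PlaceEval Fermat.Agent.GAL.RED
  Fermat.Agent.DR.Nodal

open scoped Classical

variable {K F Γ : Type} [Field K] [Field F] [Algebra K F] [Group Γ] [IsFF K F] [IsAlgClosed K]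

/-- (MV0a) uniform version of `Unr.exists_fixed_rep`: the effective divisor `D` with `ell D = 1` does not depend on
`g`.  COPY the proof of `Unr.exists_fixed_rep` (file `S17/Unr/MinDiv.lean`): `(e, D)` from
`Unr.exists_effective_rep`, then for every `g` the argument given there shows `g • D = D`. -/
theorem exists_rep_fixed_by_all (P₀ : Place K F) (x : Pic0 K F) :
    ∃ (e : ℕ) (D : Divisor K F) (h : D - e • pt P₀ ∈ Divisor.degZero (K := K) (F := F)),
      0 ≤ D ∧ Pic0.mk ⟨_, h⟩ = x ∧
        ∀ g : SemilinearAut K F, g • P₀ = P₀ → g • x = x → g • D = D := by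
  obtain ⟨E₀, rfl⟩ := Pic0.mk_surjective x
  obtain ⟨e, D, hD0, hD1, hDE⟩ := Unr.exists_effective_rep P₀ (E₀ : Divisor K F) E₀.2
  have hdeg : D - e • pt P₀ ∈ Divisor.degZero (K := K) (F := F) := by
    obtain ⟨f, hf, hfD⟩ := hDE
    have h1 : D - e • pt P₀ - (E₀ : Divisor K F) = divOf f := by
      ext v
      rw [hfD v, divOf_apply]
    have h2 : D - e • pt P₀ = divOf f + (E₀ : Divisor K F) := by rw [← h1]; abel
    rw [Divisor.mem_degZero, h2, map_add, degree_divOf, zero_add]
    exact E₀.2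
  refine ⟨e, D, hdeg, hD0, ?_, ?_⟩
  · refine (QuotientAddGroup.eq (s := (Divisor.principal (K := K) (F := F)).addSubgroupOf
      (Divisor.degZero (K := K) (F := F)))).2 ?_
    rw [AddSubgroup.mem_addSubgroupOf]
    have h2 : ((-(⟨D - e • pt P₀, hdeg⟩ : Divisor.degZero (K := K) (F := F)) + E₀ :
        Divisor.degZero (K := K) (F := F)) : Divisor K F) =
        -(D - e • pt P₀ - (E₀ : Divisor K F)) := by
      rw [AddSubgroup.coe_add, AddSubgroup.coe_neg]
      show -(D - e • pt P₀) + (E₀ : Divisor K F) = _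
      generalize e • pt P₀ = X
      abel
    rw [h2]
    exact neg_mem hDE
  · intro g hP₀ hx
    have hgE : g • (E₀ : Divisor K F) - E₀ ∈ Divisor.principal (K := K) (F := F) := by
      rw [SemilinearAut.pic0_smul_mk] at hx
      have h1 := (QuotientAddGroup.eq (s := (Divisor.principal (K := K) (F := F)).addSubgroupOf
        (Divisor.degZero (K := K) (F := F)))).1 hx.symm
      rw [AddSubgroup.mem_addSubgroupOf] at h1
      have h2 : ((-E₀ + SemilinearAut.degZeroSMulHom g E₀ : Divisor.degZero (K := K) (F := F)) :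
          Divisor K F) = g • (E₀ : Divisor K F) - E₀ := by
        rw [AddSubgroup.coe_add, AddSubgroup.coe_neg, SemilinearAut.coe_degZeroSMulHom]
        abel
      rwa [h2] at h1
    have hgD0 : 0 ≤ g • D := by
      intro v
      rw [SemilinearAut.divisor_smul_apply]
      exact hD0 _
    have hgpt : g • (e • pt P₀) = e • pt P₀ := by
      rw [smul_comm, SemilinearAut.smul_single, hP₀]
    apply Unr.eq_of_principal_sub hD0 hD1 hgD0
    have h1 := SemilinearAut.smul_mem_principal g hDE
    have h2 : g • D - D = g • (D - e • pt P₀ - (E₀ : Divisor K F)) -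
        (D - e • pt P₀ - (E₀ : Divisor K F)) + (g • (E₀ : Divisor K F) - E₀) := by
      rw [smul_sub, smul_sub, hgpt]
      abel
    rw [h2]
    exact add_mem (sub_mem h1 hDE) hgE

/-- (MV0b) general: `g` maps `L(D)` to `L(g • D)` (`mem_riemannRochSpace_iff`, `SemilinearAut.ord_smul`,
`SemilinearAut.divisor_smul_apply`). -/
theorem smul_mem_L (g : SemilinearAut K F) {D : Divisor K F} {f : F}
    (hf : f ∈ riemannRochSpace D) : g • f ∈ riemannRochSpace (g • D) := by
  rw [mem_riemannRochSpace_iff] at hf ⊢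
  intro v
  rcases hf (g⁻¹ • v) with h | h
  · left
    rw [h, smul_zero]
  · right
    have h1 := SemilinearAut.ord_smul g (g⁻¹ • v) f
    rw [smul_inv_smul] at h1
    rw [h1, SemilinearAut.divisor_smul_apply]
    exact h

/-- (MV0c) base point freeness: `deg D ≥ 2 g` ⟹ for every `P` some `f ∈ L(D)` has `ord_P f = - D P`
(`ell_eq_of_lt_degree'` for `D` and `D - pt P`: `ell (D - pt P) < ell D`, so there is `f ∈ L(D) \ L(D - pt P)`;
`mem_riemannRochSpace_iff`). -/
theorem exists_ord_eq (D : Divisor K F) (hD : 2 * (genusFF K F : ℤ) ≤ Divisor.degree D)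
    (P : Place K F) : ∃ f ∈ riemannRochSpace D, f ≠ 0 ∧ P.ord f = - D P := by
  obtain ⟨f, hf0, hf, hord⟩ := Fermat.Agent.GAL.FF.Cor.exists_mem_L_ord_eq hD P
  exact ⟨f, hf, hf0, hord⟩

variable (S : Setup K F Γ) (Q : RatField S)

/-- (MV0d) (`mem_riemannRochSpace_iff`, `mem_RO`) -/
theorem L_le_ROm {D : Divisor K F} (hD : ∀ P, P ≠ S.oo → D P ≤ 0) :
    riemannRochSpace D ≤ ROm S := by
  intro f hf
  show f ∈ RO S.oo
  rw [mem_RO]
  intro P hP
  rcases (mem_riemannRochSpace_iff.1 hf) P with h | h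
  · rw [h]
    simp
  · have := hD P hP
    omega

theorem polesOnly_L {D : Divisor K F} (hD : ∀ P, P ≠ S.oo → D P ≤ 0) :
    PolesOnly S (riemannRochSpace D) := fun f hf hf0 => polesOnly_ROm S f (L_le_ROm S hD hf) hf0

variable {S}

/-- (MV0e) the reduced elements of `L(D)`, `D` stable, are `H`-fixed (`smul_red`, `smul_mem_L`). -/
theorem fixedBy_red {D : Divisor K F} (hD : ∀ P, P ≠ S.oo → D P ≤ 0) (hst : StableDiv S Q D)
    (w : ℕ) : FixedBy S Q (red S (riemannRochSpace D) w) := by
  intro γ hγ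
  refine smul_red (polesOnly_L S hD) γ (fun f hf => ?_) w
  have := smul_mem_L (S.ρ γ) hf
  rwa [hst γ hγ] at this

/-- (MV0f) `k0`-linear combinations of fixed elements are fixed (`Algebra.smul_def`, `smul_mul'`, `smul_add`,
`SemilinearAut.smul_algebraMap`, `Q.mem_iff`). -/
theorem FixedBy.smul {f : F} (hf : FixedBy S Q f) {c : K} (hc : c ∈ Q.k0) :
    FixedBy S Q (c • f) := by
  intro γ hγ
  rw [Algebra.smul_def, smul_mul', SemilinearAut.smul_algebraMap, hf γ hγ,
    (Q.mem_iff c).1 hc γ hγ]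

theorem FixedBy.add {f f' : F} (hf : FixedBy S Q f) (hf' : FixedBy S Q f') :
    FixedBy S Q (f + f') := fun γ hγ => by rw [smul_add, hf γ hγ, hf' γ hγ]

theorem FixedBy.sub {f f' : F} (hf : FixedBy S Q f) (hf' : FixedBy S Q f') :
    FixedBy S Q (f - f') := fun γ hγ => by rw [smul_sub, hf γ hγ, hf' γ hγ]

/-- (MV0g) the divisor of a fixed function is stable. -/
theorem FixedBy.stableDiv_divOf {f : F} (hf : FixedBy S Q f) : StableDiv S Q (divOf f) := by
  intro γ hγ
  ext v
  rw [SemilinearAut.divisor_smul_apply, divOf_apply, divOf_apply]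
  have h1 := SemilinearAut.ord_smul (S.ρ γ) ((S.ρ γ)⁻¹ • v) f
  rw [smul_inv_smul, hf γ hγ] at h1
  exact h1.symm

end Fermat.Agent.S17.BR
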