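import Fermat.Agent.S17.BR.Move0

/-!
# S17 / BR, moving lemma, part 1: a rational (`H`-fixed) section avoiding finitely many points.
-/

set_option autoImplicit false
set_option linter.unusedSectionVars false

noncomputable section

namespace Fermat.Agent.S17.BR

open AlgebraicCurve Fermat.Agent.Lib.RR Fermat.Agent.Lib.PlaceEval Fermat.Agent.GAL.RED
  Fermat.Agent.DR.Nodal

open scoped Classical

variable {K F Γ : Type} [Field K] [Field F] [Algebra K F] [Group Γ] [IsFF K F] [IsAlgClosed K]
  {S : Setup K F Γ} (Q : RatField S)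

/-- auxiliary: `f ∈ L(D) \ L(D - P)` has exact order `- D P` at `P`. -/
theorem Move1_ord_eq_of_not_mem {D : Divisor K F} {P : Place K F} {f : F}
    (hf : f ∈ riemannRochSpace D) (hf' : f ∉ riemannRochSpace (D - pt P)) :
    f ≠ 0 ∧ P.ord f = - D P := by
  have hf0 : f ≠ 0 := by
    rintro rfl
    exact hf' (Submodule.zero_mem _)
  refine ⟨hf0, ?_⟩
  rw [mem_riemannRochSpace_iff] at hf
  by_contra hne
  apply hf'
  rw [mem_riemannRochSpace_iff]
  intro v
  right
  have hv := (hf v).resolve_left hf0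
  by_cases hvP : v = P
  · subst hvP
    rw [Finsupp.sub_apply, Finsupp.single_eq_same]
    omega
  · rw [Finsupp.sub_apply, Finsupp.single_eq_of_ne (Ne.symm (Ne.symm hvP)), sub_zero]
    exact hv

/-- (MV1) `V := L(D)`, `n` with `-(n:ℤ) ≤ - D oo`-bound for the orders at `oo` (`n := (D oo).toNat`),
`ι := (Finset.range (n+1)).filter (PoleOf S V)`, `r w := red S V w` (`H`-fixed by `fixedBy_red`; they span `V` over `K` by
`eq_sum_red`).  `Φ : (ι → k0) →ₗ[k0] F`, `c ↦ ∑ c w • r w`.  For `P ∈ Sg` the `k0`-subspace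
`W_P := {c | Φ c ∈ L(D - pt P)}` is proper: otherwise all `r w ∈ L(D - pt P)`, hence `V ≤ L(D - pt P)`, contradicting
`exists_ord_eq`.  `k0` is infinite, so `⋃ W_P ≠ univ` (`Subspace.biUnion_ne_univ_of_top_notMem`).  For `c` outside:
`f := Φ c ∈ V`, fixed (`FixedBy.smul`, `FixedBy.add`, induction on the sum), `f ∉ L(D - pt P)` gives `f ≠ 0`
(if `Sg` is empty take any `r w ≠ 0`, or add one place to `Sg`) and `ord_P f = - D P`. -/
theorem exists_fixed_avoiding [Infinite Q.k0] (D : Divisor K F) (hD : ∀ P, P ≠ S.oo → D P ≤ 0)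
    (hst : StableDiv S Q D) (hdeg : 2 * (genusFF K F : ℤ) ≤ Divisor.degree D)
    (Sg : Finset (Place K F)) :
    ∃ f ∈ riemannRochSpace D, f ≠ 0 ∧ FixedBy S Q f ∧ ∀ P ∈ Sg, P.ord f = - D P := by
  classical
  set V := riemannRochSpace D with hVdef
  have hV : PolesOnly S V := polesOnly_L S hD
  set n := (D S.oo).toNat with hn
  let r : Fin (n + 1) → F := fun w => red S V (w : ℕ)
  let Φ : (Fin (n + 1) → Q.k0) → F := fun c => ∑ w, ((c w : K)) • r w
  have hΦadd : ∀ c c', Φ (c + c') = Φ c + Φ c' := by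
    intro c c'
    show ∑ w, (((c + c') w : Q.k0) : K) • r w = ∑ w, ((c w : K)) • r w + ∑ w, ((c' w : K)) • r w
    rw [← Finset.sum_add_distrib]
    refine Finset.sum_congr rfl fun w _ => ?_
    rw [Pi.add_apply, Subfield.coe_add, add_smul]
  have hΦsmul : ∀ (a : Q.k0) c, Φ (a • c) = (a : K) • Φ c := by
    intro a c
    show ∑ w, (((a • c) w : Q.k0) : K) • r w = (a : K) • ∑ w, ((c w : K)) • r w
    rw [Finset.smul_sum]
    refine Finset.sum_congr rfl fun w _ => ?_
    rw [Pi.smul_apply, smul_eq_mul, Subfield.coe_mul, mul_smul]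
  have hΦzero : Φ 0 = 0 := by
    show ∑ w, (((0 : Fin (n + 1) → Q.k0) w : Q.k0) : K) • r w = 0
    refine Finset.sum_eq_zero fun w _ => ?_
    rw [Pi.zero_apply, Subfield.coe_zero, zero_smul]
  have hΦV : ∀ c, Φ c ∈ V := fun c =>
    Submodule.sum_mem _ fun w _ => Submodule.smul_mem _ _ (red_mem _)
  have hΦfix : ∀ c, FixedBy S Q (Φ c) := by
    intro c γ hγ
    show S.ρ γ • ∑ w, ((c w : K)) • r w = ∑ w, ((c w : K)) • r w
    rw [Finset.smul_sum]
    refine Finset.sum_congr rfl fun w _ => ?_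
    exact (fixedBy_red Q hD hst (w : ℕ)).smul Q (c w).2 γ hγ
  let W : Place K F → Submodule Q.k0 (Fin (n + 1) → Q.k0) := fun P =>
    { carrier := {c | Φ c ∈ riemannRochSpace (D - pt P)}
      add_mem' := fun {c c'} hc hc' => by
        show Φ (c + c') ∈ riemannRochSpace (D - pt P)
        rw [hΦadd]
        exact Submodule.add_mem _ hc hc'
      zero_mem' := by
        show Φ 0 ∈ riemannRochSpace (D - pt P)
        rw [hΦzero]
        exact Submodule.zero_mem _
      smul_mem' := fun a c hc => by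
        show Φ (a • c) ∈ riemannRochSpace (D - pt P)
        rw [hΦsmul]
        exact Submodule.smul_mem _ _ hc }
  have hW : ∀ P, W P ≠ ⊤ := by
    intro P htop
    have hr : ∀ w : Fin (n + 1), r w ∈ riemannRochSpace (D - pt P) := by
      intro w
      have h1 : (Pi.single w 1 : Fin (n + 1) → Q.k0) ∈ W P := by
        rw [htop]
        trivial
      have h2 : Φ (Pi.single w 1) = r w := by
        show ∑ w', (((Pi.single w 1 : Fin (n + 1) → Q.k0) w' : Q.k0) : K) • r w' = r w
        rw [Finset.sum_eq_single w]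
        · rw [Pi.single_eq_same, Subfield.coe_one, one_smul]
        · intro b _ hb
          rw [Pi.single_eq_of_ne hb, Subfield.coe_zero, zero_smul]
        · intro h
          exact absurd (Finset.mem_univ w) h
      rw [← h2]
      exact h1
    obtain ⟨f, hf, hf0, hford⟩ := exists_ord_eq D hdeg P
    have hfn : f = 0 ∨ -(n : ℤ) ≤ S.oo.ord f := by
      right
      have h1 := ((mem_riemannRochSpace_iff.1 hf) S.oo).resolve_left hf0
      have h2 : D S.oo ≤ (n : ℤ) := Int.self_le_toNat _
      omega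
    have hsum := eq_sum_red hV hf n hfn
    have hfL : f ∈ riemannRochSpace (D - pt P) := by
      rw [hsum]
      refine Submodule.sum_mem _ fun w hw => Submodule.smul_mem _ _ ?_
      have hw' : w < n + 1 := Finset.mem_range.1 (Finset.mem_filter.1 hw).1
      exact hr ⟨w, hw'⟩
    have h3 := ((mem_riemannRochSpace_iff.1 hfL) P).resolve_left hf0
    rw [Finsupp.sub_apply, Finsupp.single_eq_same, hford] at h3
    omega
  have hcover := Subspace.biUnion_ne_univ_of_top_notMem (k := Q.k0)
    (s := (insert S.oo Sg).image W) (by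
      intro h
      obtain ⟨P, _, hP⟩ := Finset.mem_image.1 h
      exact hW P hP)
  obtain ⟨c, hc⟩ : ∃ c : Fin (n + 1) → Q.k0, ∀ P ∈ insert S.oo Sg, c ∉ W P := by
    by_contra hcon
    push Not at hcon
    apply hcover
    ext c
    simp only [Set.mem_iUnion, Set.mem_univ, iff_true]
    obtain ⟨P, hP, hcP⟩ := hcon c
    exact ⟨W P, Finset.mem_image_of_mem W hP, hcP⟩
  refine ⟨Φ c, hΦV c, ?_, hΦfix c, fun P hP => ?_⟩
  · exact (Move1_ord_eq_of_not_mem (hΦV c) (hc S.oo (Finset.mem_insert_self _ _))).1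
  · exact (Move1_ord_eq_of_not_mem (hΦV c) (hc P (Finset.mem_insert_of_mem hP))).2

end Fermat.Agent.S17.BR
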