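import Fermat.Agent.Lib.PlaceEval
import Fermat.Agent.GAL.FF.RH.Rational
import Fermat.Agent.GAL.FF.RH.Ineq
import Fermat.Agent.S19.Weil.FinDim

/-!
# S17 / BR, moving lemma, part 2 (general function fields, characteristic `0`): a non-constant function has only
finitely many ramification points.
-/

set_option autoImplicit false
set_option linter.unusedSectionVars false

noncomputable section

namespace Fermat.Agent.S17.BR

open AlgebraicCurve Fermat.Agent.Lib.RR Fermat.Agent.Lib.PlaceEval Fermat.Agent.GAL.RED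
  IntermediateField

variable {K F : Type} [Field K] [Field F] [Algebra K F] [IsFF K F] [IsAlgClosed K] [CharZero K]

/-- (MV2) `φ` non-constant ⟹ transcendental over `K` (`K` algebraically closed:
search `transcendental` in `GAL/FF/Corollaries.lean`, `GAL/FF/General.lean`, `Lib/RR`), `F / K(φ)` finite
(search `finiteDimensional_adjoin` / `FiniteDimensional K⟮x⟯ F` in `GAL/FF/*`, `Lib/RR/*`, `S24/*`), separable (characteristic `0`),
`IsFF K K⟮φ⟯` (`GAL.FF.isFF_adjoin`).  `GAL.FF.finite_ramified` (file `GAL/FF/RH/Ineq.lean`) + `GAL.FF.ramificationIndex_adjoin_of_pos`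
(file `GAL/FF/RH/Rational.lean`) with `c = ev P φ`. -/
theorem finite_ram (φ : F) (hφ : φ ∉ Set.range (algebraMap K F)) :
    {P : Place K F | 0 ≤ P.ord φ ∧ 2 ≤ P.ord (φ - algebraMap K F (ev P φ))}.Finite := by
  have htr : Transcendental K φ := S19.Weil.transcendental_of_not_mem_range hφ
  have hfd : FiniteDimensional K⟮φ⟯ F := S19.Weil.finiteDimensional_adjoin htr
  have hsep : Algebra.IsSeparable K⟮φ⟯ F := S19.Weil.isSeparable_adjoin htr
  have hFF1 : IsFF K K⟮φ⟯ := GAL.FF.isFF_adjoin φ htr
  have h1 : {w : Place K F | w.ramificationIndex K⟮φ⟯ ≠ 1}.Finite :=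
    GAL.FF.finite_ramified (k := K) (F := K⟮φ⟯) (F' := F)
  apply h1.subset
  rintro P ⟨-, hc⟩
  have h2 := GAL.FF.ramificationIndex_adjoin_of_pos φ htr P (ev P φ) (by omega)
  show P.ramificationIndex K⟮φ⟯ ≠ 1
  intro h3
  rw [h3] at h2
  push_cast at h2
  omega

end Fermat.Agent.S17.BR
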