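import Fermat.Agent.Lib.PlaceEval

/-!
# S17 / BR, moving lemma, part 3 (general, purely local computation): the members of a pencil without base points.
-/

set_option autoImplicit false
set_option linter.unusedSectionVars false

noncomputable section

namespace Fermat.Agent.S17.BR

open AlgebraicCurve Fermat.Agent.Lib.RR Fermat.Agent.Lib.PlaceEval Fermat.Agent.GAL.RED

variable {K F : Type} [Field K] [Field F] [Algebra K F] [IsFF K F] [IsAlgClosed K]

/-- (MV3) `f₀, f₁ ∈ L(D)` nonzero without common zero (relative to `D`), `φ = f₁ / f₀`, `f = f₁ - c f₀ = f₀ (φ - c)`.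
Fix `P`, `z₀ := ord_P f₀ + D P ≥ 0`, `z₁ := ord_P f₁ + D P ≥ 0`, `z₀ = 0 ∨ z₁ = 0`, `ord_P φ = z₁ - z₀`.
* `z₀ > 0`: `ord_P f₁ < ord_P (c f₀)` (or `c = 0`), so `ord_P f = ord_P f₁ = - D P` (`ord_add_eq_of_lt`).
* `z₀ = 0`: `ord_P φ ≥ 0` and `ord_P f + D P = ord_P (φ - c)`.
Conclusion as stated. (`f ≠ 0` is a hypothesis.) -/
theorem pencil_ord (D : Divisor K F) {f₀ f₁ : F} (h₀ : f₀ ≠ 0) (h₁ : f₁ ≠ 0)
    (hf₀ : f₀ ∈ riemannRochSpace D) (hf₁ : f₁ ∈ riemannRochSpace D)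
    (hdisj : ∀ P : Place K F, P.ord f₀ = - D P ∨ P.ord f₁ = - D P) (c : K)
    (hf : f₁ - c • f₀ ≠ 0) (P : Place K F) :
    (P.ord (f₁ - c • f₀) + D P = 0) ∨
      (0 ≤ P.ord (f₁ / f₀) ∧ ev P (f₁ / f₀) = c ∧
        P.ord (f₁ - c • f₀) + D P = P.ord (f₁ / f₀ - algebraMap K F (ev P (f₁ / f₀)))) := by
  have a0 := ((mem_riemannRochSpace_iff.1 hf₀) P).resolve_left h₀
  have a1 := ((mem_riemannRochSpace_iff.1 hf₁) P).resolve_left h₁
  by_cases hsP : P.ord f₀ = - D P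
  · have hfac : f₁ - c • f₀ = f₀ * (f₁ / f₀ - algebraMap K F c) := by
      rw [Algebra.smul_def]
      field_simp
    have hne2 : f₁ / f₀ - algebraMap K F c ≠ 0 := by
      intro h
      rw [h, mul_zero] at hfac
      exact hf hfac
    have hord : P.ord (f₁ / f₀ - algebraMap K F c) = P.ord (f₁ - c • f₀) + D P := by
      rw [hfac, P.ord_mul h₀ hne2, hsP]
      ring
    have hx0 : 0 ≤ P.ord (f₁ / f₀) := by
      rw [ord_div P h₁ h₀]
      omega
    by_cases hz : P.ord (f₁ - c • f₀) + D P = 0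
    · exact Or.inl hz
    · right
      have hge : 0 ≤ P.ord (f₁ / f₀ - algebraMap K F c) := by
        have h0 : 0 ≤ P.ord (algebraMap K F c) := by rw [ord_algebraMap]
        exact (mem_iff P).1 (sub_mem ((mem_iff P).2 hx0) ((mem_iff P).2 h0))
      have hev : ev P (f₁ / f₀) = c := (ev_eq_iff P hx0 c).2 (Or.inr (by omega))
      exact ⟨hx0, hev, by rw [hev, hord]⟩
  · left
    have h1 : P.ord f₁ = - D P := (hdisj P).resolve_left hsP
    have h2 : P.ord f₁ < P.ord f₀ := by omega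
    have h3 : P.ord (f₁ - c • f₀) = P.ord f₁ := by
      rcases eq_or_ne c 0 with rfl | hc0
      · rw [zero_smul, sub_zero]
      · have hcs : c • f₀ ≠ 0 := smul_ne_zero hc0 h₀
        rw [sub_eq_add_neg]
        apply ord_add_eq_of_lt P h₁ (neg_ne_zero.2 hcs)
        rw [ord_neg, Algebra.smul_def,
          P.ord_mul (by simpa using hc0) h₀, ord_algebraMap, zero_add]
        exact h2
    omega

/-- (MV3') `φ = f₁ / f₀` is not constant if `f₀` has a zero relative to `D` (there `φ` has a pole: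
`ord_P φ = ord_P f₁ - ord_P f₀ < 0`, `RED.ord_div`, `RED.ord_algebraMap`). -/
theorem pencil_nonconstant (D : Divisor K F) {f₀ f₁ : F} (h₀ : f₀ ≠ 0) (h₁ : f₁ ≠ 0)
    (hdisj : ∀ P : Place K F, P.ord f₀ = - D P ∨ P.ord f₁ = - D P)
    (P : Place K F) (hP : P.ord f₀ ≠ - D P) (hf₀ : f₀ ∈ riemannRochSpace D) :
    f₁ / f₀ ∉ Set.range (algebraMap K F) := by
  rintro ⟨c, hc⟩
  have a0 := ((mem_riemannRochSpace_iff.1 hf₀) P).resolve_left h₀
  have h1 : P.ord f₁ = - D P := (hdisj P).resolve_left hP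
  have h2 : P.ord (f₁ / f₀) = 0 := by rw [← hc, ord_algebraMap]
  rw [ord_div P h₁ h₀] at h2
  omega

end Fermat.Agent.S17.BR
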