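import Fermat.Agent.S17.BR.Move1
import Fermat.Agent.S17.BR.Move2
import Fermat.Agent.S17.BR.Move3

/-!
# S17 / BR, moving lemma, part 4: a rational section with reduced divisor avoiding a finite set ("Bertini").
-/

set_option autoImplicit false
set_option linter.unusedSectionVars false

noncomputable section

namespace Fermat.Agent.S17.BR

open AlgebraicCurve Fermat.Agent.Lib.RR Fermat.Agent.Lib.PlaceEval Fermat.Agent.GAL.RED
  Fermat.Agent.DR.Nodal

open scoped Classical

variable {K F Γ : Type} [Field K] [Field F] [Algebra K F] [Group Γ] [IsFF K F] [IsAlgClosed K]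
  [CharZero K] {S : Setup K F Γ} (Q : RatField S)

/-- (MV4) `f₀` from `exists_fixed_avoiding` (`Sg = ∅`); `Sg₁ := (divOf f₀ + D).support`; `f₁` from
`exists_fixed_avoiding` (`Sg = Sg₁`).  Then `hdisj` of `pencil_ord` holds.  `Sg₁ ≠ ∅` because
`deg (divOf f₀ + D) = deg D > 0` (`degree_divOf`), so `φ := f₁ / f₀` is not constant (`pencil_nonconstant`), in particular
`f₁ - c • f₀ ≠ 0` for all `c`.  `B := (fun P => ev P φ) '' (Ram ∪ T)` is finite (`finite_ram`); choose `c ∈ k0`, `c ∉ B`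
(`Set.Infinite.exists_notMem_finite` / `Infinite.exists_notMem_finset` for the infinite type `Q.k0`).
`f := f₁ - c • f₀ ∈ L(D)` is fixed (`FixedBy.sub`, `FixedBy.smul`).  `pencil_ord` at each `P`: first alternative: `= 0`;
second alternative: `ev P φ = c ∉ B`, so `P ∉ Ram`, `P ∉ T`, hence the order is `< 2`. -/
theorem exists_fixed_reduced [Infinite Q.k0] (D : Divisor K F) (hD : ∀ P, P ≠ S.oo → D P ≤ 0)
    (hst : StableDiv S Q D) (hdeg : 2 * (genusFF K F : ℤ) + 1 ≤ Divisor.degree D)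
    (T : Finset (Place K F)) :
    ∃ f ∈ riemannRochSpace D, f ≠ 0 ∧ FixedBy S Q f ∧ (∀ P : Place K F, P.ord f + D P ≤ 1) ∧
      ∀ P ∈ T, P.ord f + D P = 0 := by
  have hdeg' : 2 * (genusFF K F : ℤ) ≤ Divisor.degree D := by omega
  obtain ⟨f₀, hf₀, h₀, hfix₀, -⟩ := exists_fixed_avoiding Q D hD hst hdeg' ∅
  obtain ⟨f₁, hf₁, h₁, hfix₁, hav⟩ :=
    exists_fixed_avoiding Q D hD hst hdeg' (divOf f₀ + D).support
  have hdisj : ∀ P : Place K F, P.ord f₀ = - D P ∨ P.ord f₁ = - D P := by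
    intro P
    by_cases hP : P ∈ (divOf f₀ + D).support
    · exact Or.inr (hav P hP)
    · left
      have h := Finsupp.notMem_support_iff.1 hP
      rw [Finsupp.add_apply, divOf_apply] at h
      omega
  -- the support is nonempty
  have hne : ∃ P : Place K F, P.ord f₀ ≠ - D P := by
    by_contra hcon
    push Not at hcon
    have hz : divOf f₀ + D = 0 := by
      ext P
      rw [Finsupp.add_apply, divOf_apply, hcon P]
      simp
    have hd : Divisor.degree (divOf f₀ + D) = 0 := by rw [hz, map_zero]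
    rw [map_add, degree_divOf, zero_add] at hd
    have : (0 : ℤ) ≤ (genusFF K F : ℤ) := Int.natCast_nonneg _
    omega
  obtain ⟨P₀, hP₀⟩ := hne
  have hnc : f₁ / f₀ ∉ Set.range (algebraMap K F) :=
    pencil_nonconstant D h₀ h₁ hdisj P₀ hP₀ hf₀
  have hfne : ∀ c : K, f₁ - c • f₀ ≠ 0 := by
    intro c hc
    apply hnc
    refine ⟨c, ?_⟩
    rw [eq_div_iff h₀, ← Algebra.smul_def]
    exact (sub_eq_zero.1 hc).symm
  have hfin : ((fun P : Place K F => ev P (f₁ / f₀)) ''
      ({P : Place K F | 0 ≤ P.ord (f₁ / f₀) ∧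
        2 ≤ P.ord (f₁ / f₀ - algebraMap K F (ev P (f₁ / f₀)))} ∪ (T : Set (Place K F)))).Finite :=
    ((finite_ram (f₁ / f₀) hnc).union T.finite_toSet).image _
  have hinf : (Set.range (fun c : Q.k0 => (c : K))).Infinite :=
    Set.infinite_range_of_injective Subtype.val_injective
  obtain ⟨c', ⟨c, rfl⟩, hcB⟩ := hinf.exists_notMem_finite hfin
  refine ⟨f₁ - (c : K) • f₀, Submodule.sub_mem _ hf₁ (Submodule.smul_mem _ _ hf₀), hfne _,
    hfix₁.sub Q (hfix₀.smul Q c.2), ?_, ?_⟩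
  · intro P
    rcases pencil_ord D h₀ h₁ hf₀ hf₁ hdisj (c : K) (hfne _) P with h | ⟨h1, h2, h3⟩
    · omega
    · by_contra hcon
      apply hcB
      refine ⟨P, Or.inl ⟨h1, ?_⟩, h2⟩
      omega
  · intro P hP
    rcases pencil_ord D h₀ h₁ hf₀ hf₁ hdisj (c : K) (hfne _) P with h | ⟨h1, h2, h3⟩
    · exact h
    · exact absurd ⟨P, Or.inr hP, h2⟩ hcB

end Fermat.Agent.S17.BR
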