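import Fermat.Agent.S17.BR.RatA

/-!
# S17 / BR, leaf RT-B: the Galois action on finite sets of points; rationality.
-/

set_option autoImplicit false
set_option linter.unusedSectionVars false

noncomputable section

namespace Fermat.Agent.S17.BR

open AlgebraicCurve Fermat.Agent.Lib.RR Fermat.Agent.Lib.PlaceEval Fermat.Agent.GAL.RED
  Fermat.Agent.DR.Nodal

open scoped Classical

variable {K F Γ : Type} [Field K] [Field F] [Algebra K F] [Group Γ] [IsFF K F] [IsAlgClosed K]

variable (S : Setup K F Γ)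

variable (Q : RatField S)

/-- `f` is fixed by `H`. -/
def FixedBy (f : F) : Prop := ∀ γ ∈ Q.H, S.ρ γ • f = f

/-- the divisor `A` is `H`-stable. -/
def StableDiv (A : Divisor K F) : Prop := ∀ γ ∈ Q.H, S.ρ γ • A = A

/-- the finite set of points `D` is `H`-stable. -/
def RatD (D : Finset (RO S.oo →ₐ[K] K)) : Prop := ∀ γ ∈ Q.H, ∀ χ ∈ D, conj S γ χ ∈ D

variable {S}

/-- (RT5) the structure constants are fixed by ALL `γ`: `repr_eq_co`, `S.co_ρ`, `smul_mul'`, `smul_eF`;
then `Q.mem_iff`. -/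
theorem frame_isRat : (frame S).IsRat Q.k0 := by
  intro i j l
  rw [Q.mem_iff]
  intro γ _
  show SemilinearAut.baseAut (S.ρ γ) ((basis S).repr (basis S i * basis S j) l) =
    (basis S).repr (basis S i * basis S j) l
  rw [repr_eq_co, ← S.co_ρ, basis_apply, basis_apply]
  congr 1
  show S.ρ γ • ((eF S i : F) * (eF S j : F)) = (eF S i : F) * (eF S j : F)
  rw [smul_mul', smul_eF, smul_eF]

/-- (RT6) `→`: `f = ∑ repr f i • e i` (finite sum `Module.Basis.sum_repr`/`linearCombination_repr`),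
`γ (c • e) = (baseAut γ c) • γ e` (`Algebra.smul_def`, `smul_mul'`, `SemilinearAut.smul_algebraMap`), `smul_eF`,
`Q.mem_iff`.  `←`: `repr_eq_co`, `S.co_ρ`, `Q.mem_iff`. -/
theorem ratFn_iff (f : RO S.oo) : (frame S).RatFn Q.k0 f ↔ FixedBy S Q (f : F) := by
  constructor
  · intro h γ hγ
    have hf : f = ∑ i ∈ ((basis S).repr f).support, (basis S).repr f i • basis S i := by
      conv_lhs => rw [← (basis S).linearCombination_repr f]
      rw [Finsupp.linearCombination_apply, Finsupp.sum]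
    have hf' : (f : F) = ∑ i ∈ ((basis S).repr f).support, (basis S).repr f i • (eF S i : F) := by
      conv_lhs => rw [hf]
      rw [AddSubmonoidClass.coe_finsetSum]
      refine Finset.sum_congr rfl fun i _ => ?_
      rw [basis_apply]
      rfl
    rw [hf', Finset.smul_sum]
    refine Finset.sum_congr rfl fun i _ => ?_
    have hi : SemilinearAut.baseAut (S.ρ γ) ((basis S).repr f i) = (basis S).repr f i :=
      (Q.mem_iff _).1 (h i) γ hγ
    rw [Algebra.smul_def, smul_mul', SemilinearAut.smul_algebraMap, smul_eF, hi]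
  · intro h i
    rw [Q.mem_iff]
    intro γ hγ
    show SemilinearAut.baseAut (S.ρ γ) ((basis S).repr f i) = (basis S).repr f i
    rw [repr_eq_co, ← S.co_ρ, h γ hγ]

/-- (RT7) a `H`-stable finite set is mapped ONTO itself by `conj γ`, `γ ∈ H`
(`Finset.eq_of_subset_of_card_le`, `Finset.card_image_of_injective`, `conj_injective`). -/
theorem RatD.image_eq {D : Finset (RO S.oo →ₐ[K] K)} (hD : RatD S Q D) (γ : Γ) (hγ : γ ∈ Q.H) :
    D.image (conj S γ) = D := by
  apply Finset.eq_of_subset_of_card_le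
  · intro χ hχ
    obtain ⟨χ', hχ', rfl⟩ := Finset.mem_image.1 hχ
    exact hD γ hγ χ' hχ'
  · rw [Finset.card_image_of_injective _ (conj_injective S γ)]

/-- (RT8) **stable sets are `RatSet`s.**  `p := ∏_{χ ∈ D} (X - C (χ f))`.  For `γ ∈ H`, with `s := baseAut (ρ γ)` :
`p.map s = ∏ (X - C (s (χ f))) = ∏ (X - C (conj γ χ f))` (`conj_apply_smul`, `γ f = f` by `ratFn_iff`)
`= p` (`Finset.prod_image`, `RatD.image_eq`).  So `s (p.coeff m) = p.coeff m` (`Polynomial.coeff_map`); `Q.mem_iff`. -/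
theorem RatD.ratSet {D : Finset (RO S.oo →ₐ[K] K)} (hD : RatD S Q D) :
    RatSet (frame S) Q.k0 D := by
  intro f hf m
  rw [Q.mem_iff]
  intro γ hγ
  have hfix : S.ρ γ • (f : F) = f := (ratFn_iff Q f).1 hf γ hγ
  set s : K →+* K := (SemilinearAut.baseAut (S.ρ γ) : K ≃+* K).toRingHom with hs
  have hmap : (∏ P ∈ D, (Polynomial.X - Polynomial.C (P f))).map s =
      ∏ P ∈ D, (Polynomial.X - Polynomial.C (P f)) := by
    rw [Polynomial.map_prod]
    conv_rhs => rw [← hD.image_eq Q γ hγ]
    rw [Finset.prod_image (fun a _ b _ h => conj_injective S γ h)]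
    refine Finset.prod_congr rfl fun χ _ => ?_
    rw [Polynomial.map_sub, Polynomial.map_X, Polynomial.map_C]
    congr 2
    have h1 := conj_apply_smul S γ χ f
    have h2 : (⟨S.ρ γ • (f : F), smul_mem_RO S γ f.2⟩ : RO S.oo) = f := Subtype.ext hfix
    rw [h2] at h1
    exact h1.symm
  have h3 := congrArg (fun p : Polynomial K => p.coeff m) hmap
  simp only [Polynomial.coeff_map] at h3
  exact h3

theorem RatD.union {D E : Finset (RO S.oo →ₐ[K] K)} (hD : RatD S Q D) (hE : RatD S Q E) :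
    RatD S Q (D ∪ E) := by
  intro γ hγ χ hχ
  rcases Finset.mem_union.1 hχ with h | h
  · exact Finset.mem_union_left _ (hD γ hγ χ h)
  · exact Finset.mem_union_right _ (hE γ hγ χ h)

/-- (RT9) (`divSet`, `smul_sum`, `SemilinearAut.smul_single`, `placeOf_conj`, `Finset.sum_image`) -/
theorem smul_divSet (γ : Γ) (D : Finset (RO S.oo →ₐ[K] K)) :
    S.ρ γ • divSet S.oo D = divSet S.oo (D.image (conj S γ)) := by
  rw [divSet, divSet, Finset.smul_sum, Finset.sum_image (fun a _ b _ h => conj_injective S γ h)]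
  refine Finset.sum_congr rfl fun χ _ => ?_
  rw [SemilinearAut.smul_single, placeOf_conj]

theorem RatD.stableDiv {D : Finset (RO S.oo →ₐ[K] K)} (hD : RatD S Q D) :
    StableDiv S Q (divSet S.oo D) := fun γ hγ => by
  rw [smul_divSet, hD.image_eq Q γ hγ]

/-- (RT10) converse: if `divSet D` is stable then `D` is (`divSet_apply`,
`SemilinearAut.divisor_smul_apply_smul`, `placeOf_conj`). -/
theorem ratD_of_stableDiv {D : Finset (RO S.oo →ₐ[K] K)} (h : StableDiv S Q (divSet S.oo D)) :
    RatD S Q D := by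
  intro γ hγ χ hχ
  have h1 : divSet S.oo D (placeOf S.oo (conj S γ χ)) = 1 := by
    rw [placeOf_conj]
    conv_lhs => rw [← h γ hγ]
    rw [SemilinearAut.divisor_smul_apply_smul, divSet_apply, if_pos hχ]
  rw [divSet_apply] at h1
  by_contra hcon
  rw [if_neg hcon] at h1
  exact zero_ne_one h1

/-- (RT11) the class of a stable set is `H`-fixed (`SemilinearAut.pic0_smul_mk`, `RatD.stableDiv`,
`SemilinearAut.smul_single`, `S.ρ_oo`). -/
theorem RatD.smul_cl {D : Finset (RO S.oo →ₐ[K] K)} (hD : RatD S Q D) (γ : Γ) (hγ : γ ∈ Q.H) :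
    S.ρ γ • cl S.oo D = cl S.oo D := by
  rw [cl, SemilinearAut.pic0_smul_mk]
  congr 1
  apply Subtype.ext
  rw [SemilinearAut.coe_degZeroSMulHom]
  show S.ρ γ • (divSet S.oo D - D.card • pt S.oo) = divSet S.oo D - D.card • pt S.oo
  rw [smul_sub, hD.stableDiv Q γ hγ, smul_comm, SemilinearAut.smul_single, S.ρ_oo]

end Fermat.Agent.S17.BR
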