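import Fermat.Agent.S17.BR.Frame
import Fermat.Agent.S17.BR.Points

/-!
# S17 / BR, leaf RT-A: the Galois action on functions and points.
-/

set_option autoImplicit false
set_option linter.unusedSectionVars false

noncomputable section

namespace Fermat.Agent.S17.BR

open AlgebraicCurve Fermat.Agent.Lib.RR Fermat.Agent.Lib.PlaceEval Fermat.Agent.GAL.RED
  Fermat.Agent.DR.Nodal

open scoped Classical

variable {K F Γ : Type} [Field K] [Field F] [Algebra K F] [Group Γ] [IsFF K F] [IsAlgClosed K]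

/-- (RT1) **evaluation is equivariant** (general).  If `f` has a pole at `P` both sides are `0`
(`ev_of_not_mem`, `mem_iff`, `SemilinearAut.ord_smul`).  Otherwise use `ev_eq_iff` for `g • P`, `g • f`,
`a := baseAut g (ev P f)`: `g • f - algebraMap a = g • (f - algebraMap (ev P f))`
(`SemilinearAut.smul_algebraMap`) has the same order at `g • P` as `f - algebraMap (ev P f)` at `P`
(`ord_sub_ev_pos`). -/
theorem ev_smul (g : SemilinearAut K F) (P : Place K F) (f : F) :
    ev (g • P) (g • f) = SemilinearAut.baseAut g (ev P f) := by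
  by_cases hf : 0 ≤ P.ord f
  · have hgf : 0 ≤ (g • P).ord (g • f) := by rwa [SemilinearAut.ord_smul]
    rw [ev_eq_iff (g • P) hgf]
    have hkey : g • f - algebraMap K F (SemilinearAut.baseAut g (ev P f)) =
        g • (f - algebraMap K F (ev P f)) := by
      rw [smul_sub, SemilinearAut.smul_algebraMap]
    rcases ord_sub_ev_pos P hf with h | h
    · left
      conv_lhs => rw [h]
      rw [SemilinearAut.smul_algebraMap]
    · right
      rw [hkey, SemilinearAut.ord_smul]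
      exact h
  · have hgf : ¬ 0 ≤ (g • P).ord (g • f) := by rwa [SemilinearAut.ord_smul]
    rw [ev_of_not_mem P (fun h => hf ((mem_iff P).1 h)),
      ev_of_not_mem (g • P) (fun h => hgf ((mem_iff (g • P)).1 h)), map_zero]

variable (S : Setup K F Γ)

/-- `ord_oo (γ f) = ord_oo f` (`SemilinearAut.ord_smul`, `S.ρ_oo`). -/
theorem ord_oo_smul (γ : Γ) (f : F) : S.oo.ord (S.ρ γ • f) = S.oo.ord f := by
  have h := SemilinearAut.ord_smul (S.ρ γ) S.oo f
  rwa [S.ρ_oo] at h

/-- (RT2) (`mem_RO`; for `P ≠ oo` write `P = γ • (γ⁻¹ • P)`, `γ⁻¹ • P ≠ oo`; `SemilinearAut.ord_smul`). -/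
theorem smul_mem_RO (γ : Γ) {f : F} (hf : f ∈ RO S.oo) : S.ρ γ • f ∈ RO S.oo := by
  rw [mem_RO] at hf ⊢
  intro P hP
  have h1 := SemilinearAut.ord_smul (S.ρ γ) ((S.ρ γ)⁻¹ • P) f
  rw [smul_inv_smul] at h1
  rw [h1]
  apply hf
  intro h2
  apply hP
  have h3 : P = S.ρ γ • S.oo := by rw [← h2, smul_inv_smul]
  rw [h3, S.ρ_oo]

theorem smul_ne_oo (γ : Γ) {P : Place K F} (hP : P ≠ S.oo) : S.ρ γ • P ≠ S.oo := by
  intro h
  apply hP
  have h2 : S.ρ γ • P = S.ρ γ • S.oo := by rw [h, S.ρ_oo]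
  exact MulAction.injective _ h2

/-- (RT3) `smul_red` for `V = ROm S` (`smul_mem_RO`, `polesOnly_ROm`). -/
theorem smul_eF (γ : Γ) (i : ℕ) : S.ρ γ • (eF S i : F) = eF S i := by
  exact smul_red (polesOnly_ROm S) γ
    (fun f hf => (Subalgebra.mem_toSubmodule _).2
      (smul_mem_RO S γ ((Subalgebra.mem_toSubmodule _).1 hf))) (wt S i)

/-- the action on points. -/
def conj (γ : Γ) (χ : RO S.oo →ₐ[K] K) : RO S.oo →ₐ[K] K :=
  ptOf S.oo (S.ρ γ • placeOf S.oo χ) (smul_ne_oo S γ (placeOf_ne S.oo χ))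

theorem placeOf_conj (γ : Γ) (χ : RO S.oo →ₐ[K] K) :
    placeOf S.oo (conj S γ χ) = S.ρ γ • placeOf S.oo χ := placeOf_ptOf _ _ _

/-- (RT4) (`ev_smul`, `apply_eq_ev`) -/
theorem conj_apply_smul (γ : Γ) (χ : RO S.oo →ₐ[K] K) (f : RO S.oo) :
    conj S γ χ ⟨S.ρ γ • (f : F), smul_mem_RO S γ f.2⟩ = SemilinearAut.baseAut (S.ρ γ) (χ f) := by
  rw [conj, ptOf_apply, apply_eq_ev S.oo χ f]
  exact ev_smul (S.ρ γ) (placeOf S.oo χ) (f : F)

theorem conj_injective (γ : Γ) : Function.Injective (conj S γ) := by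
  intro χ χ' h
  have h2 := congrArg (placeOf S.oo) h
  rw [placeOf_conj, placeOf_conj] at h2
  exact placeOf_injective S.oo (MulAction.injective _ h2)

end Fermat.Agent.S17.BR
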