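import Fermat.Agent.S17.BR.Rat

/-!
# S17 / BR, leaf ZR: zero sets of functions in `RO oo` and principal divisors
(`ClassData.principal`, `cl_zeros`, `dvd_of_zeros`).
-/

set_option autoImplicit false
set_option linter.unusedSectionVars false

noncomputable section

namespace Fermat.Agent.S17.BR

open AlgebraicCurve Fermat.Agent.Lib.RR Fermat.Agent.Lib.PlaceEval Fermat.Agent.GAL.RED
  Fermat.Agent.DR.Nodal

open scoped Classical

variable {K F Γ : Type} [Field K] [Field F] [Algebra K F] [Group Γ] [IsFF K F] [IsAlgClosed K]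

theorem infinite_points (oo : Place K F) : Infinite (RO oo →ₐ[K] K) := by
  have : Infinite (Place K F) := infinite_place
  have h1 : Infinite {P : Place K F // P ≠ oo} := by
    have : ({P : Place K F | P ≠ oo}).Infinite := by
      have h2 : ({oo}ᶜ : Set (Place K F)).Infinite := (Set.finite_singleton oo).infinite_compl
      exact h2
    exact this.to_subtype
  refine Infinite.of_injective (fun P : {P : Place K F // P ≠ oo} => ptOf oo P.1 P.2) ?_
  intro P Q h
  have := congrArg (placeOf oo) h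
  simp only [placeOf_ptOf] at this
  exact Subtype.ext this

theorem divSet_sub_apply (oo : Place K F) (D : Finset (RO oo →ₐ[K] K)) (χ : RO oo →ₐ[K] K) :
    (divSet oo D - D.card • pt oo) (placeOf oo χ) = if χ ∈ D then 1 else 0 := by
  rw [Finsupp.sub_apply, divSet_apply, Finsupp.smul_apply, Finsupp.single_apply,
    if_neg (placeOf_ne oo χ).symm]
  simp

theorem divSet_sub_apply_oo (oo : Place K F) (D : Finset (RO oo →ₐ[K] K)) :
    (divSet oo D - D.card • pt oo) oo = -(D.card : ℤ) := by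
  rw [Finsupp.sub_apply, divSet_apply_oo, Finsupp.smul_apply, Finsupp.single_apply, if_pos rfl]
  simp

variable (S : Setup K F Γ)

theorem IsZeros.ne_zero {f : RO S.oo} {D : Finset (RO S.oo →ₐ[K] K)}
    (h : IsZeros (frame S) f D) : f ≠ 0 := by
  rintro rfl
  have := infinite_points S.oo
  obtain ⟨χ, hχ⟩ := Infinite.exists_notMem_finset D
  exact hχ ((h.1 χ).1 (map_zero χ))

theorem IsZeros.divOf_eq {f : RO S.oo} {D : Finset (RO S.oo →ₐ[K] K)}
    (h : IsZeros (frame S) f D) : divOf (f : F) = divSet S.oo D - D.card • pt S.oo := by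
  have hf := IsZeros.ne_zero S h
  have hnn : 0 ≤ divOf (f : F) - (divSet S.oo D - D.card • pt S.oo) := by
    intro P
    rw [Finsupp.coe_zero, Pi.zero_apply, Finsupp.sub_apply, divOf_apply]
    by_cases hP : P = S.oo
    · subst hP
      rw [divSet_sub_apply_oo, h.2]
      have := frame_deg S f hf
      omega
    · obtain ⟨χ, rfl⟩ : ∃ χ, placeOf S.oo χ = P := ⟨ptOf S.oo P hP, placeOf_ptOf _ _ _⟩
      rw [divSet_sub_apply]
      have h0 : 0 ≤ (placeOf S.oo χ).ord (f : F) := (mem_RO S.oo).1 f.2 _ hP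
      split_ifs with hχ
      · have := (apply_eq_zero_iff S.oo χ f).1 ((h.1 χ).2 hχ)
        rcases this with h1 | h1
        · exact absurd h1 hf
        · omega
      · omega
  have hdeg : Divisor.degree (divOf (f : F) - (divSet S.oo D - D.card • pt S.oo)) = 0 := by
    rw [map_sub, degree_divOf, Divisor.mem_degZero.1 (divSet_sub_mem S.oo D), sub_zero]
  exact sub_eq_zero.1 (eq_zero_of_nonneg_of_degree hnn hdeg)

theorem isZeros_of_divOf_eq {f : RO S.oo} {D : Finset (RO S.oo →ₐ[K] K)} (hf : f ≠ 0)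
    (h : divOf (f : F) = divSet S.oo D - D.card • pt S.oo) : IsZeros (frame S) f D := by
  refine ⟨fun χ => ?_, ?_⟩
  · rw [apply_eq_zero_iff]
    have h1 := DFunLike.congr_fun h (placeOf S.oo χ)
    rw [divOf_apply, divSet_sub_apply] at h1
    rw [h1]
    constructor
    · rintro (h2 | h2)
      · exact absurd h2 hf
      · by_contra hχ
        rw [if_neg hχ] at h2
        exact lt_irrefl _ h2
    · intro hχ
      right
      rw [if_pos hχ]
      exact one_pos
  · have h1 := DFunLike.congr_fun h S.oo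
    rw [divOf_apply, divSet_sub_apply_oo] at h1
    have := frame_deg S f hf
    omega

theorem cl_zeros (f : RO S.oo) (D : Finset (RO S.oo →ₐ[K] K)) (h : IsZeros (frame S) f D) :
    cl S.oo D = 0 := by
  rw [cl_eq_zero_iff, ← IsZeros.divOf_eq S h, Divisor.mem_principal]
  exact ⟨(f : F), fun h0 => IsZeros.ne_zero S h (Subtype.ext h0), fun v => divOf_apply _ v⟩

theorem dvd_of_zeros (f : RO S.oo) (D : Finset (RO S.oo →ₐ[K] K)) (h : IsZeros (frame S) f D)
    (u : RO S.oo) (hu : ∀ P ∈ D, P u = 0) : f ∣ u := by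
  have hf := IsZeros.ne_zero S h
  have hf' : (f : F) ≠ 0 := fun h0 => hf (Subtype.ext h0)
  rcases eq_or_ne u 0 with rfl | hu0
  · exact dvd_zero f
  have hu' : (u : F) ≠ 0 := fun h0 => hu0 (Subtype.ext h0)
  have hmem : (u : F) / (f : F) ∈ RO S.oo := by
    rw [mem_RO]
    intro P hP
    obtain ⟨χ, rfl⟩ : ∃ χ, placeOf S.oo χ = P := ⟨ptOf S.oo P hP, placeOf_ptOf _ _ _⟩
    rw [ord_div _ hu' hf']
    have h1 := DFunLike.congr_fun (IsZeros.divOf_eq S h) (placeOf S.oo χ)
    rw [divOf_apply, divSet_sub_apply] at h1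
    rw [h1]
    have h0 : 0 ≤ (placeOf S.oo χ).ord (u : F) := (mem_RO S.oo).1 u.2 _ hP
    split_ifs with hχ
    · rcases (apply_eq_zero_iff S.oo χ u).1 (hu χ hχ) with h2 | h2
      · exact absurd h2 hu0
      · omega
    · omega
  refine ⟨⟨_, hmem⟩, Subtype.ext ?_⟩
  show (u : F) = (f : F) * ((u : F) / (f : F))
  field_simp

theorem exists_smul_eq_of_divOf_eq {f g : F} (hf : f ≠ 0) (hg : g ≠ 0)
    (h : divOf (K := K) f = divOf g) : ∃ c : K, f = c • g := by
  have h1 : ∀ P : Place K F, 0 ≤ P.ord (f / g) := by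
    intro P
    rw [ord_div _ hf hg]
    have := DFunLike.congr_fun h P
    rw [divOf_apply, divOf_apply] at this
    omega
  obtain ⟨c, hc⟩ := mem_range_of_ord_nonneg h1
  refine ⟨c, ?_⟩
  rw [Algebra.smul_def, hc]
  field_simp

theorem divOf_smul (g : SemilinearAut K F) (f : F) : divOf (K := K) (g • f) = g • divOf f := by
  ext w
  rw [SemilinearAut.divisor_smul_apply, divOf_apply, divOf_apply]
  have := SemilinearAut.ord_smul g (g⁻¹ • w) f
  rwa [smul_inv_smul] at this

theorem smul_eq_self_of_divOf (γ : Γ) {f : F} (hf : f ≠ 0) (h : S.ρ γ • divOf (K := K) f = divOf f)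
    (h1 : S.co (S.oo.ord f) f = 1) : S.ρ γ • f = f := by
  have hγf : S.ρ γ • f ≠ 0 := by
    intro h0
    apply hf
    have := congrArg (fun x => (S.ρ γ)⁻¹ • x) h0
    simpa using this
  obtain ⟨c, hc⟩ := exists_smul_eq_of_divOf_eq (K := K) hγf hf (by rw [divOf_smul, h])
  have h2 := S.co_ρ γ (S.oo.ord f) f
  rw [hc, map_smul, h1, map_one, smul_eq_mul, mul_one] at h2
  rw [hc, h2, one_smul]

theorem principal (Q : RatField S) (D : Finset (RO S.oo →ₐ[K] K)) (hD : RatD S Q D)
    (h : cl S.oo D = 0) : ∃ f, (frame S).RatFn Q.k0 f ∧ IsZeros (frame S) f D := by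
  rw [cl_eq_zero_iff, Divisor.mem_principal] at h
  obtain ⟨f₀, hf₀, hdiv⟩ := h
  set c : K := S.co (S.oo.ord f₀) f₀ with hc
  have hc0 : c ≠ 0 := S.co_ord f₀ hf₀
  set f : F := c⁻¹ • f₀ with hfdef
  have hf0 : f ≠ 0 := smul_ne_zero (inv_ne_zero hc0) hf₀
  have hord : ∀ P : Place K F, P.ord f = P.ord f₀ := by
    intro P
    rw [hfdef, Algebra.smul_def, P.ord_mul (by simpa using hc0) hf₀, ord_algebraMap, zero_add]
  have hdivf : divOf (K := K) f = divSet S.oo D - D.card • pt S.oo := by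
    ext P
    rw [divOf_apply, hord, hdiv]
  have hmem : f ∈ RO S.oo := by
    rw [mem_RO]
    intro P hP
    obtain ⟨χ, rfl⟩ : ∃ χ, placeOf S.oo χ = P := ⟨ptOf S.oo P hP, placeOf_ptOf _ _ _⟩
    rw [← divOf_apply (K := K), hdivf, divSet_sub_apply]
    split_ifs <;> simp
  have hlead : S.co (S.oo.ord f) f = 1 := by
    rw [hord, hfdef, map_smul, smul_eq_mul, ← hc, inv_mul_cancel₀ hc0]
  refine ⟨⟨f, hmem⟩, (ratFn_iff Q _).2 ?_, isZeros_of_divOf_eq S (fun h0 => hf0 (congrArg Subtype.val h0)) hdivf⟩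
  intro γ hγ
  apply smul_eq_self_of_divOf S γ hf0 _ hlead
  rw [hdivf, smul_sub, hD.stableDiv Q γ hγ, smul_comm, SemilinearAut.smul_single, S.ρ_oo]

end Fermat.Agent.S17.BR
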